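import Fermat.Agent.FunctionField.RiemannRoch
import Mathlib.RingTheory.Etale.Field
import Mathlib.RingTheory.Etale.Kaehler
import Mathlib.RingTheory.Smooth.Field
import Mathlib.FieldTheory.IntermediateField.Adjoin.Algebra
import Mathlib.RingTheory.AlgebraicIndependent.TranscendenceBasis
import Mathlib.RingTheory.Kaehler.Polynomial

/-!
# Recognising function fields in one variable

A finitely generated extension is a function field in one variable iff it has transcendence degree
one. Over a perfect constant field the differentials of such an extension have rank one, so it is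
a curve in the sense of `IsCurveOver`, and conversely.
-/

set_option autoImplicit false

noncomputable section

open AlgebraicCurve IntermediateField Cardinal

namespace Fermat.Agent.FunctionField

universe u v

variable {K : Type u} {F : Type v} [Field K] [Field F] [Algebra K F]

theorem algebraicIndependent_singleton {x : F} (hx : Transcendental K x) :
    AlgebraicIndependent K ![x] :=
  algebraicIndependent_unique_type_iff.mpr (by simpa using hx)

theorem isAlgebraic_adjoin_of_trdeg_one (h : Algebra.trdeg K F = 1) {x : F}
    (hx : Transcendental K x) : Algebra.IsAlgebraic K⟮x⟯ F := by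
  have hb : IsTranscendenceBasis K ![x] :=
    (algebraicIndependent_singleton hx).isTranscendenceBasis_of_lift_trdeg_le_of_finite
      (by rw [h]; simp)
  have := hb.isAlgebraic_field
  rwa [show Set.range ![x] = {x} by simp] at this

/-- A finitely generated extension of transcendence degree one is a function field in one
variable. -/
theorem isFunctionField_of_trdeg_one [Algebra.EssFiniteType K F] (h : Algebra.trdeg K F = 1) :
    IsFunctionField K F where
  exists_transcendental := by
    obtain ⟨s, hs⟩ := exists_isTranscendenceBasis K F
    have hc := hs.cardinalMk_eq_trdeg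
    rw [h] at hc
    obtain ⟨a, ha⟩ := Cardinal.mk_ne_zero_iff.mp (hc ▸ one_ne_zero : Cardinal.mk s ≠ 0)
    exact ⟨a, hs.1.transcendental ⟨a, ha⟩⟩
  finiteDimensional_adjoin x hx := by
    have := isAlgebraic_adjoin_of_trdeg_one h hx
    have : Algebra.EssFiniteType K⟮x⟯ F := Algebra.EssFiniteType.of_comp K K⟮x⟯ F
    exact Algebra.finite_of_essFiniteType_of_isAlgebraic

/-- An algebraic extension of `K⟮x⟯`, `x` transcendental, has transcendence degree one. -/
theorem trdeg_eq_one_of_isAlgebraic {x : F} (hx : Transcendental K x)
    [Algebra.IsAlgebraic K⟮x⟯ F] : Algebra.trdeg K F = 1 := by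
  have hr : Set.range ![x] = {x} := by simp
  have : Algebra.IsAlgebraic (IntermediateField.adjoin K (Set.range ![x])) F := by
    rw [hr]; infer_instance
  have hb : IsTranscendenceBasis K ![x] :=
    (algebraicIndependent_singleton hx).isTranscendenceBasis_iff_isAlgebraic.mpr
      (isAlgebraic_adjoin_iff_top.mp this)
  simpa using hb.lift_cardinalMk_eq_trdeg.symm

/-- A finite extension of `K⟮x⟯`, with `x` transcendental, is a function field. -/
theorem isFunctionField_of_finiteDimensional {x : F} (hx : Transcendental K x)
    [FiniteDimensional K⟮x⟯ F] : IsFunctionField K F := by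
  have : Algebra.EssFiniteType K K⟮x⟯ :=
    (essFiniteType_iff).mpr (fg_adjoin_of_finite (Set.finite_singleton x))
  have : Algebra.EssFiniteType K F := Algebra.EssFiniteType.comp K K⟮x⟯ F
  exact isFunctionField_of_trdeg_one (trdeg_eq_one_of_isAlgebraic hx)

/-- A function field in one variable is finitely generated. -/
theorem essFiniteType [IsFunctionField K F] : Algebra.EssFiniteType K F := by
  obtain ⟨x, hx⟩ := IsFunctionField.exists_transcendental (K := K) (F := F)
  have := IsFunctionField.finiteDimensional_adjoin x hx
  have : Algebra.EssFiniteType K K⟮x⟯ :=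
    (essFiniteType_iff).mpr (fg_adjoin_of_finite (Set.finite_singleton x))
  exact Algebra.EssFiniteType.comp K K⟮x⟯ F

/-- A function field in one variable has transcendence degree one. -/
theorem trdeg_eq_one [IsFunctionField K F] : Algebra.trdeg K F = 1 := by
  obtain ⟨x, hx⟩ := IsFunctionField.exists_transcendental (K := K) (F := F)
  have := IsFunctionField.finiteDimensional_adjoin x hx
  have : Algebra.IsAlgebraic K⟮x⟯ F := Algebra.IsAlgebraic.of_finite _ _
  exact trdeg_eq_one_of_isAlgebraic hx

open scoped IntermediateField.algebraAdjoinAdjoin in
/-- The differentials of a separably generated extension are free on a separating transcendence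
basis. -/
theorem finrank_kaehler_eq_card {ι : Type*} [Fintype ι] {x : ι → F}
    (hx : AlgebraicIndependent K x)
    [Algebra.IsSeparable (IntermediateField.adjoin K (Set.range x)) F] :
    Module.finrank F Ω[F⁄K] = Fintype.card ι := by
  let : Algebra (MvPolynomial ι K) (Algebra.adjoin K (Set.range x)) :=
    hx.aevalEquiv.toRingEquiv.toRingHom.toAlgebra
  let : Algebra (MvPolynomial ι K) F := (MvPolynomial.aeval x).toRingHom.toAlgebra
  have : IsScalarTower K (MvPolynomial ι K) F :=
    IsScalarTower.of_algebraMap_eq fun a => ((MvPolynomial.aeval x).commutes a).symm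
  have : IsScalarTower (MvPolynomial ι K) (Algebra.adjoin K (Set.range x)) F :=
    IsScalarTower.of_algebraMap_eq fun p => rfl
  let e : MvPolynomial ι K ≃ₐ[MvPolynomial ι K] Algebra.adjoin K (Set.range x) :=
    AlgEquiv.ofRingEquiv (f := hx.aevalEquiv.toRingEquiv) fun p => rfl
  have h1 : Algebra.FormallyEtale (MvPolynomial ι K) (Algebra.adjoin K (Set.range x)) :=
    Algebra.FormallyEtale.of_equiv e
  have h2 : Algebra.FormallyEtale (Algebra.adjoin K (Set.range x))
      (IntermediateField.adjoin K (Set.range x)) :=
    Algebra.FormallyEtale.of_isLocalization (nonZeroDivisors _)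
  have h3 : Algebra.FormallyEtale (IntermediateField.adjoin K (Set.range x)) F :=
    Algebra.FormallyEtale.of_isSeparable _ F
  have h4 : Algebra.FormallyEtale (Algebra.adjoin K (Set.range x)) F :=
    .comp _ (IntermediateField.adjoin K (Set.range x)) _
  have : Algebra.FormallyEtale (MvPolynomial ι K) F :=
    .comp _ (Algebra.adjoin K (Set.range x)) _
  rw [← (KaehlerDifferential.tensorKaehlerEquivOfFormallyEtale K (MvPolynomial ι K) F).finrank_eq,
    Module.finrank_baseChange,
    Module.finrank_eq_card_basis (KaehlerDifferential.mvPolynomialBasis K ι)]

variable [PerfectField K]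

/-- For a finitely generated extension of a perfect field, the differentials have rank the
transcendence degree. -/
theorem trdeg_eq_finrank_kaehler [Algebra.EssFiniteType K F] :
    Algebra.trdeg K F = (Module.finrank F Ω[F⁄K] : Cardinal.{v}) := by
  obtain ⟨s, hs, hsep⟩ := exists_isTranscendenceBasis_and_isSeparable_of_perfectField K F
  have : Algebra.IsSeparable (IntermediateField.adjoin K (Set.range ((↑) : s → F))) F := by
    rwa [show Set.range ((↑) : s → F) = (s : Set F) by simp]
  rw [finrank_kaehler_eq_card hs.1, Fintype.card_coe, ← hs.cardinalMk_eq_trdeg,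
    Cardinal.mk_fintype, Fintype.card_coe]

/-- A function field over a perfect field is a curve. -/
theorem isCurveOver [IsFunctionField K F] : IsCurveOver K F :=
  { hasPrincipalDivisors (K := K) (F := F) with
    finiteResidue := finite_residueField
    kaehler_free_rank_one := by
      have := essFiniteType (K := K) (F := F)
      have h := trdeg_eq_finrank_kaehler (K := K) (F := F)
      rw [trdeg_eq_one] at h
      exact ⟨inferInstance, by exact_mod_cast h.symm⟩ }

/-- A finitely generated curve over a perfect field is a function field in one variable. -/
theorem isFunctionField_of_isCurveOver [IsCurveOver K F] [Algebra.EssFiniteType K F] :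
    IsFunctionField K F := by
  refine isFunctionField_of_trdeg_one ?_
  rw [trdeg_eq_finrank_kaehler, IsCurveOver.finrank_kaehler, Nat.cast_one]

end Fermat.Agent.FunctionField
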