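import Fermat.Agent.FunctionField.PrincipalDivisors
import Mathlib.Data.Int.LeastGreatest

/-!
# The Riemann theorem

For a function field in one variable `H¹(D)` is finite dimensional and
`l(D) - i(D) = deg D + l(0) - g`. Over an algebraically closed constant field `l(0) = 1`.
-/

set_option autoImplicit false

noncomputable section

open WithZero AlgebraicCurve

namespace Fermat.Agent.FunctionField

namespace RelDim

variable {K M N : Type*} [Field K] [AddCommGroup M] [Module K M] [AddCommGroup N] [Module K N]
  {A B : Submodule K M} {d : ℕ}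

/-- Injective linear maps preserve the relative dimension. -/
theorem map (h : RelDim A B d) (f : M →ₗ[K] N) (hf : Function.Injective f) :
    RelDim (A.map f) (B.map f) d := by
  have := h.finite
  let e := Submodule.equivMapOfInjective f hf B
  let g : B.map f →ₗ[K] B ⧸ A.submoduleOf B := (A.submoduleOf B).mkQ.comp e.symm.toLinearMap
  have hker : LinearMap.ker g = (A.map f).submoduleOf (B.map f) := by
    ext x
    obtain ⟨y, rfl⟩ := e.surjective x
    show Submodule.Quotient.mk (e.symm (e y)) = 0 ↔ f (y : M) ∈ A.map f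
    rw [LinearEquiv.symm_apply_apply, Submodule.Quotient.mk_eq_zero]
    refine ⟨fun hy => ⟨_, hy, rfl⟩, ?_⟩
    rintro ⟨z, hz, hzy⟩
    exact (show (y : M) ∈ A from hf hzy ▸ hz)
  exact h.finrank_eq ▸ of_surjective (Submodule.map_mono h.le) g
    ((Submodule.mkQ_surjective _).comp e.symm.surjective) hker

/-- Relative dimension zero means equality. -/
theorem le_of_zero (h : RelDim A B 0) : B ≤ A := fun x hx => by
  have := h.finite
  have h' := Module.finrank_zero_iff.mp h.finrank_eq
  exact (Submodule.Quotient.mk_eq_zero (A.submoduleOf B)).mp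
    (Subsingleton.elim (Submodule.Quotient.mk (⟨x, hx⟩ : B)) 0)

end RelDim

variable {K F : Type*} [Field K] [Field F] [Algebra K F] [IsFunctionField K F]

/-- `l(D) = dim L(D)`. -/
def ell (D : Divisor K F) : ℕ := Module.finrank K (riemannRochSpace D)

/-- `i(D) = dim H¹(D)`. -/
def index (D : Divisor K F) : ℕ := Module.finrank K (H1 D)

/-- `deg D - l(D)`. -/
def delta (D : Divisor K F) : ℤ := Divisor.degree D - ell D

/-- A family is a repartition iff it is integral at almost all places. -/
theorem mem_repartitions_iff {α : Place K F → F} :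
    α ∈ repartitions K F ↔ {v : Place K F | ¬v.adicValuation (α v) ≤ 1}.Finite := by
  refine ⟨fun h => ?_, mem_repartitions_of_finite⟩
  refine Algebra.adjoin_induction
    (p := fun α _ => {v : Place K F | ¬v.adicValuation (α v) ≤ 1}.Finite)
    (fun α hα => hα) (fun f => ?_) (fun α β _ _ hα hβ => ?_) (fun α β _ _ hα hβ => ?_) h
  · refine (finite_ord_pos (K := K) f⁻¹).subset fun v hv => ?_
    have hv' : ¬v.adicValuation f ≤ 1 := hv
    rw [v.not_adicValuation_le_one_iff] at hv'
    show 0 < v.ord f⁻¹
    rw [v.ord_inv]; omega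
  · refine (hα.union hβ).subset fun v hv => ?_
    by_contra hc
    simp only [Set.mem_union, Set.mem_ofPred_eq, not_or, not_not] at hc
    exact hv ((Valuation.map_add _ _ _).trans (max_le hc.1 hc.2))
  · refine (hα.union hβ).subset fun v hv => ?_
    by_contra hc
    simp only [Set.mem_union, Set.mem_ofPred_eq, not_or, not_not] at hc
    refine hv ?_
    show v.adicValuation (α v * β v) ≤ 1
    rw [map_mul]
    exact mul_le_one' hc.1 hc.2

variable (K F) in
/-- Constant repartitions. -/
def constRep : F →ₗ[K] ↥(repartitions K F) :=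
  (Algebra.linearMap F ↥(repartitions K F)).restrictScalars K

omit [IsFunctionField K F] in
theorem range_constRep : LinearMap.range (constRep K F) = principalRepartitions K F := by
  ext α
  rfl

theorem constRep_injective : Function.Injective (constRep K F) := fun f g h => by
  obtain ⟨v⟩ := nonempty_place K F
  exact congrFun (congrArg Subtype.val h) v

omit [IsFunctionField K F] in
theorem map_constRep (D : Divisor K F) :
    (riemannRochSpace D).map (constRep K F) = repartitionsOf D ⊓ principalRepartitions K F := by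
  ext α
  constructor
  · rintro ⟨f, hf, rfl⟩
    exact ⟨fun v => hf v, range_constRep.le ⟨f, rfl⟩⟩
  · rintro ⟨hα, hP⟩
    obtain ⟨f, rfl⟩ := range_constRep.ge hP
    exact ⟨f, fun v => hα v, rfl⟩

theorem relDim_repartitionsOf {D E : Divisor K F} (h : D ≤ E) :
    ∃ d : ℕ, (d : ℤ) = Divisor.degree E - Divisor.degree D ∧
      RelDim (repartitionsOf D) (repartitionsOf E) d := by
  classical
  set S := D.support ∪ E.support
  refine ⟨degOn S (fun v => D v) (fun v => E v),
    degOn_eq_degree h S Finset.subset_union_left Finset.subset_union_right, ?_⟩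
  have hq : ∀ v : S, RelDim (lLocal v.1 (D v.1)) (lLocal v.1 (E v.1))
      ((E v.1 - D v.1).toNat * v.1.deg) := fun v =>
    relDim_lLocal_of_le v.1 (Finsupp.le_def.mp h v.1)
  have : ∀ v : S, Module.Finite K (LocalQ v.1 (D v.1) (E v.1)) := fun v => (hq v).finite
  let ev : ∀ v : Place K F, ↥(repartitions K F) →ₗ[K] F := fun v =>
    ((LinearMap.proj v : (Place K F → F) →ₗ[F] F).comp
      (repartitions K F).val.toLinearMap).restrictScalars K
  let f : repartitionsOf E →ₗ[K] (∀ v : S, LocalQ v.1 (D v.1) (E v.1)) := LinearMap.pi fun v =>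
    (Submodule.mkQ _).comp
      (((ev v.1).comp (repartitionsOf E).subtype).codRestrict (lLocal v.1 (E v.1))
        fun α => mem_lLocal.mpr (α.2 v.1))
  have hsurj : Function.Surjective f := by
    intro x
    choose a ha using fun v : S => Submodule.mkQ_surjective _ (x v)
    have hα : ∀ v : Place K F,
        v.adicValuation (if hv : v ∈ S then (a ⟨v, hv⟩ : F) else 0) ≤ exp (E v) := fun v => by
      split_ifs with hv
      · exact mem_lLocal.mp (a ⟨v, hv⟩).2
      · simp
    refine ⟨⟨⟨_, mem_repartitions_of_forall_le_exp E _ hα⟩, hα⟩, funext fun v => ?_⟩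
    rw [← ha v]
    refine (Submodule.Quotient.eq _).mpr ?_
    show (if hv : v.1 ∈ S then (a ⟨v.1, hv⟩ : F) else 0) - (a v : F) ∈ lLocal v.1 (D v.1)
    rw [dif_pos v.2, sub_self]
    exact zero_mem _
  have hker : LinearMap.ker f = (repartitionsOf D).submoduleOf (repartitionsOf E) := by
    ext α
    constructor
    · intro hα
      show (α : ↥(repartitions K F)) ∈ repartitionsOf D
      intro v
      by_cases hv : v ∈ S
      · exact mem_lLocal.mp ((Submodule.Quotient.mk_eq_zero _).mp (congrFun hα ⟨v, hv⟩) :)
      · simp only [S, Finset.mem_union, Finsupp.mem_support_iff, not_or, not_not] at hv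
        have h2 := α.2 v
        rwa [hv.2, ← hv.1] at h2
    · intro hα
      exact funext fun v => (Submodule.Quotient.mk_eq_zero _).mpr
        (mem_lLocal.mpr ((hα : (α : ↥(repartitions K F)) ∈ repartitionsOf D) v.1))
  let hM : Module K (∀ v : S, LocalQ v.1 (D v.1) (E v.1)) := Pi.module _ _ _
  have := RelDim.of_surjective (W := ∀ v : S, LocalQ v.1 (D v.1) (E v.1))
    (repartitionsOf_mono h) f hsurj hker
  have hfree : ∀ v : S, Module.Free K (LocalQ v.1 (D v.1) (E v.1)) :=
    fun v => Module.Free.of_divisionRing K (LocalQ v.1 (D v.1) (E v.1))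
  have hrank : Module.finrank K (∀ v : S, LocalQ v.1 (D v.1) (E v.1))
      = degOn S (fun v => D v) (fun v => E v) :=
    ((Module.finrank_pi_fintype K).trans (Finset.sum_congr rfl fun v _ => (hq v).finrank_eq)).trans
      (Finset.sum_coe_sort S (fun v => (E v - D v).toNat * v.deg))
  exact hrank ▸ this

theorem relDim_sup_principal {D E : Divisor K F} (h : D ≤ E) :
    ∃ e : ℕ, (e : ℤ) = delta E - delta D ∧
      RelDim (repartitionsOf D ⊔ principalRepartitions K F)
        (repartitionsOf E ⊔ principalRepartitions K F) e := by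
  obtain ⟨d, hd, hA⟩ := relDim_repartitionsOf h
  obtain ⟨a, ha, -⟩ := relDim_riemannRochSpace h
  have hl : ell D + a = ell E :=
    ((RelDim.of_bot (B := riemannRochSpace D)).trans ha).unique
      (RelDim.of_bot (B := riemannRochSpace E))
  have ha' := ha.map (constRep K F) constRep_injective
  rw [map_constRep, map_constRep] at ha'
  obtain ⟨e, he, hr⟩ := RelDim.sup_right_aux hA.le hA ha'
  exact ⟨e, by unfold delta; omega, hr⟩

theorem delta_mono {D E : Divisor K F} (h : D ≤ E) : delta D ≤ delta E := by
  obtain ⟨e, he, -⟩ := relDim_sup_principal h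
  omega

/-- Linearly equivalent divisors have isomorphic Riemann–Roch spaces. -/
theorem ell_sub_divFun (D : Divisor K F) {g : F} (hg : g ≠ 0) :
    ell (D - divFun K g) = ell D := by
  have hval : ∀ v : Place K F, v.adicValuation g = exp (-v.ord g) := fun v =>
    v.adicValuation_eq_exp_neg_ord hg
  let e : riemannRochSpace D ≃ₗ[K] riemannRochSpace (D - divFun K g) :=
    LinearEquiv.ofBijective
      (((LinearMap.mulLeft K g).comp (riemannRochSpace D).subtype).codRestrict
        (riemannRochSpace (D - divFun K g)) fun f v => by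
          show v.adicValuation (g * (f : F)) ≤ exp ((D - divFun K g) v)
          rw [map_mul, hval v]
          refine (mul_le_mul_right (f.2 v) _).trans_eq ?_
          rw [← exp_add, Finsupp.sub_apply, divFun_apply, neg_add_eq_sub])
      ⟨fun f f' h => Subtype.ext (mul_left_cancel₀ hg (congrArg Subtype.val h)), fun f => by
        refine ⟨⟨g⁻¹ * (f : F), fun v => ?_⟩, Subtype.ext ?_⟩
        · rw [map_mul, map_inv₀, hval v, ← exp_neg]
          refine (mul_le_mul_right (f.2 v) _).trans_eq ?_
          rw [← exp_add, Finsupp.sub_apply, divFun_apply]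
          congr 1
          ring
        · show g * (g⁻¹ * (f : F)) = f
          rw [← mul_assoc, mul_inv_cancel₀ hg, one_mul]⟩
  exact e.finrank_eq.symm

theorem delta_sub_divFun (D : Divisor K F) {g : F} (hg : g ≠ 0) :
    delta (D - divFun K g) = delta D := by
  simp [delta, ell_sub_divFun D hg, degree_divFun]

theorem delta_bddAbove : ∃ γ : ℤ, ∀ D : Divisor K F, delta D ≤ γ := by
  classical
  obtain ⟨x, hx⟩ := IsFunctionField.exists_transcendental (K := K) (F := F)
  obtain ⟨C, hC, hk⟩ := exists_mul_le_ell hx
  refine ⟨Divisor.degree C, fun D => ?_⟩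
  have hbound : ∀ k : ℕ, delta (k • poleDiv K x + C) ≤ Divisor.degree C := fun k => by
    have : (degFun K x : ℤ) * (k + 1) ≤ ell (k • poleDiv K x + C) := by exact_mod_cast hk k
    simp only [delta, map_add, map_nsmul, nsmul_eq_mul, degree_poleDiv hx]
    linarith
  set P := D ⊔ 0
  have hP : (0 : Divisor K F) ≤ P := le_sup_right
  set k := (Divisor.degree P).toNat
  set E := k • poleDiv K x + C
  obtain ⟨a, ha, hle⟩ := relDim_riemannRochSpace (show E - P ≤ E from sub_le_self _ hP)
  have hl : ell (E - P) + a = ell E :=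
    ((RelDim.of_bot (B := riemannRochSpace (E - P))).trans ha).unique
      (RelDim.of_bot (B := riemannRochSpace E))
  have h2 : (degFun K x : ℤ) * (k + 1) ≤ ell E := by exact_mod_cast hk k
  have h3 : (1 : ℤ) ≤ degFun K x := by exact_mod_cast degFun_pos hx
  have h4 : (k : ℤ) + 1 ≤ degFun K x * (k + 1) := le_mul_of_one_le_left (by omega) h3
  have h5 := degree_nonneg hP
  have h6 : (k : ℤ) = Divisor.degree P := Int.toNat_of_nonneg h5
  have hpos : 0 < ell (E - P) := by
    rw [map_sub] at hle
    omega
  obtain ⟨g, hg, hg0⟩ : ∃ g ∈ riemannRochSpace (E - P), g ≠ 0 := by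
    refine Submodule.exists_mem_ne_zero_of_ne_bot fun hb => ?_
    rw [ell, hb, finrank_bot] at hpos
    exact absurd hpos (lt_irrefl 0)
  calc delta D = delta (D - divFun K g) := (delta_sub_divFun D hg0).symm
    _ ≤ delta E := delta_mono (Finsupp.le_def.mpr fun v => by
        have h1 := ((mem_riemannRochSpace_iff.mp hg) v).resolve_left hg0
        have h2 : D v ≤ P v := Finsupp.le_def.mp le_sup_left v
        simp only [Finsupp.sub_apply, divFun_apply] at h1 ⊢
        omega)
    _ ≤ _ := hbound k

variable (K F) in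
/-- `deg D - l(D)` attains a maximum. -/
theorem exists_delta_max : ∃ D₀ : Divisor K F, ∀ D : Divisor K F, delta D ≤ delta D₀ := by
  obtain ⟨γ, hγ⟩ := delta_bddAbove (K := K) (F := F)
  obtain ⟨m, ⟨D₀, rfl⟩, hm⟩ := Int.exists_greatest_of_bdd
    (P := fun z : ℤ => ∃ D : Divisor K F, delta D = z)
    ⟨γ, fun z ⟨D, hD⟩ => hD ▸ hγ D⟩ ⟨_, 0, rfl⟩
  exact ⟨D₀, fun D => hm _ ⟨D, rfl⟩⟩

/-- The divisor of poles of a repartition. -/
theorem exists_mem_repartitionsOf (α : ↥(repartitions K F)) :
    ∃ E : Divisor K F, 0 ≤ E ∧ α ∈ repartitionsOf E := by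
  classical
  have hfin : (Function.support fun v : Place K F =>
      max (-v.ord ((α : Place K F → F) v)) 0).Finite := by
    refine (mem_repartitions_iff.mp α.2).subset fun v hv => ?_
    show ¬ v.adicValuation ((α : Place K F → F) v) ≤ 1
    rw [v.not_adicValuation_le_one_iff]
    by_contra hc
    exact hv (max_eq_right (by omega))
  refine ⟨Finsupp.ofSupportFinite _ hfin, Finsupp.le_def.mpr fun v => le_max_right _ _,
    mem_repartitionsOf_iff.mpr fun v => Or.inr ?_⟩
  show -max (-v.ord ((α : Place K F → F) v)) 0 ≤ _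
  omega

theorem relDim_sup_principal_top {D₀ : Divisor K F} (hD₀ : ∀ D : Divisor K F, delta D ≤ delta D₀)
    (D : Divisor K F) :
    ∃ e : ℕ, (e : ℤ) = delta D₀ - delta D ∧
      RelDim (repartitionsOf D ⊔ principalRepartitions K F) ⊤ e := by
  classical
  have htop : repartitionsOf (D ⊔ D₀) ⊔ principalRepartitions K F = ⊤ := by
    refine eq_top_iff.mpr fun α _ => ?_
    obtain ⟨E, -, hE⟩ := exists_mem_repartitionsOf α
    obtain ⟨e, he, hr⟩ := relDim_sup_principal (show D ⊔ D₀ ≤ D ⊔ D₀ ⊔ E from le_sup_left)
    have h1 := hD₀ (D ⊔ D₀ ⊔ E)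
    have h2 : delta D₀ ≤ delta (D ⊔ D₀) := delta_mono le_sup_right
    obtain rfl : e = 0 := by omega
    exact hr.le_of_zero (Submodule.mem_sup_left (repartitionsOf_mono le_sup_right hE))
  obtain ⟨e, he, hr⟩ := relDim_sup_principal (le_sup_left : D ≤ D ⊔ D₀)
  rw [htop] at hr
  refine ⟨e, ?_, hr⟩
  have h1 := hD₀ (D ⊔ D₀)
  have h2 : delta D₀ ≤ delta (D ⊔ D₀) := delta_mono le_sup_right
  omega

/-- `H¹(D)` is finite dimensional. -/
instance finite_H1 (D : Divisor K F) : Module.Finite K (H1 D) := by
  obtain ⟨D₀, hD₀⟩ := exists_delta_max K F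
  obtain ⟨e, -, hr⟩ := relDim_sup_principal_top hD₀ D
  exact hr.to_quotient.1

theorem index_eq {D₀ : Divisor K F} (hD₀ : ∀ D : Divisor K F, delta D ≤ delta D₀)
    (D : Divisor K F) :
    (index D : ℤ) = delta D₀ - delta D := by
  obtain ⟨e, he, hr⟩ := relDim_sup_principal_top hD₀ D
  rw [← he]
  exact congrArg Nat.cast hr.to_quotient.2

/-- The Riemann–Roch theorem in Riemann's form. -/
theorem ell_sub_index (D : Divisor K F) :
    (ell D : ℤ) - index D = Divisor.degree D + ell (0 : Divisor K F) - genusFF K F := by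
  obtain ⟨D₀, hD₀⟩ := exists_delta_max K F
  have h1 := index_eq hD₀ D
  have h2 := index_eq hD₀ (0 : Divisor K F)
  have h3 : genusFF K F = index (0 : Divisor K F) := rfl
  simp only [delta, map_zero] at h1 h2
  omega

/-- Riemann's inequality `l(D) ≥ deg D + l(0) - g`. -/
theorem riemann_inequality (D : Divisor K F) :
    Divisor.degree D + ell (0 : Divisor K F) - genusFF K F ≤ (ell D : ℤ) := by
  have := ell_sub_index D
  omega

theorem index_sub_divFun (D : Divisor K F) {g : F} (hg : g ≠ 0) :
    index (D - divFun K g) = index D := by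
  obtain ⟨D₀, hD₀⟩ := exists_delta_max K F
  have h1 := index_eq hD₀ D
  have h2 := index_eq hD₀ (D - divFun K g)
  rw [delta_sub_divFun D hg] at h2
  omega

omit [IsFunctionField K F] in
/-- If `l(D) > 0` there is a non-zero function in `L(D)`. -/
theorem exists_ne_zero_mem_of_ell_pos {D : Divisor K F} (h : 0 < ell D) :
    ∃ g ∈ riemannRochSpace D, g ≠ 0 := by
  refine Submodule.exists_mem_ne_zero_of_ne_bot fun hb => ?_
  rw [ell, hb, finrank_bot] at h
  exact absurd h (lt_irrefl 0)

/-- `l(D) = 0` for divisors of negative degree. -/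
theorem ell_eq_zero_of_degree_neg {D : Divisor K F} (h : Divisor.degree D < 0) : ell D = 0 := by
  by_contra hne
  obtain ⟨g, hg, hg0⟩ := exists_ne_zero_mem_of_ell_pos (Nat.pos_of_ne_zero hne)
  have h1 : 0 ≤ D + divFun K g := Finsupp.le_def.mpr fun v => by
    have := ((mem_riemannRochSpace_iff.mp hg) v).resolve_left hg0
    simp only [Finsupp.add_apply, divFun_apply, Finsupp.zero_apply]
    omega
  have h2 := degree_nonneg h1
  rw [map_add, degree_divFun, add_zero] at h2
  omega

/-- `l(0) ≥ 1`. -/
theorem one_le_ell_zero : 1 ≤ ell (0 : Divisor K F) := by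
  refine Nat.one_le_iff_ne_zero.mpr fun h => ?_
  have hb : riemannRochSpace (0 : Divisor K F) = ⊥ := Submodule.finrank_eq_zero.mp h
  have h1 : (1 : F) ∈ riemannRochSpace (0 : Divisor K F) := fun v => by simp
  rw [hb, Submodule.mem_bot] at h1
  exact one_ne_zero h1

/-- `i(D) = 0` once the degree is large. -/
theorem exists_index_eq_zero :
    ∃ c : ℤ, ∀ D : Divisor K F, c ≤ Divisor.degree D → index D = 0 := by
  obtain ⟨D₀, hD₀⟩ := exists_delta_max K F
  refine ⟨Divisor.degree D₀ + genusFF K F, fun D hD => ?_⟩
  have h1 := riemann_inequality (D - D₀)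
  rw [map_sub] at h1
  have h2 := one_le_ell_zero (K := K) (F := F)
  obtain ⟨g, hg, hg0⟩ := exists_ne_zero_mem_of_ell_pos (D := D - D₀) (by omega)
  have h3 : D₀ ≤ D - divFun K g⁻¹ := Finsupp.le_def.mpr fun v => by
    have := ((mem_riemannRochSpace_iff.mp hg) v).resolve_left hg0
    simp only [Finsupp.sub_apply, divFun_apply, Place.ord_inv] at this ⊢
    omega
  rw [← index_sub_divFun D (inv_ne_zero hg0)]
  have h4 := index_eq hD₀ (D - divFun K g⁻¹)
  have h5 := delta_mono h3
  omega

section AlgClosed

variable [IsAlgClosed K]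

/-- Over an algebraically closed constant field every place has degree one. -/
theorem deg_eq_one (v : Place K F) : v.deg = 1 := v.deg_eq_one_of_isAlgClosed_of_finite

/-- Over an algebraically closed constant field only constants have no poles. -/
theorem ell_zero_eq_one : ell (0 : Divisor K F) = 1 := by
  obtain ⟨v⟩ := nonempty_place K F
  have := (finrank_riemannRochSpace_zero_le v).2
  rw [deg_eq_one v] at this
  exact le_antisymm this one_le_ell_zero

/-- `l(D) - i(D) = deg D + 1 - g` over an algebraically closed constant field. -/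
theorem riemann_roch (D : Divisor K F) :
    (ell D : ℤ) - index D = Divisor.degree D + 1 - genusFF K F := by
  rw [ell_sub_index D, ell_zero_eq_one, Nat.cast_one]

end AlgClosed

end Fermat.Agent.FunctionField
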