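import Fermat.Agent.FunctionField.PlaceBasics

/-!
# Weak approximation

Finitely many places of a field are independent: one can prescribe a function at each of them up to
any given order of vanishing (`approximation`).
-/

set_option autoImplicit false

noncomputable section

open WithZero AlgebraicCurve

namespace Fermat.Agent.FunctionField

variable {K F : Type*} [Field K] [Field F] [Algebra K F]

/-- Two distinct places are separated by a function. -/
theorem exists_lt_one_one_lt {v w : Place K F} (h : v ≠ w) :
    ∃ g : F, g ≠ 0 ∧ 1 < v.adicValuation g ∧ w.adicValuation g < 1 := by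
  obtain ⟨a, ha1, ha2⟩ := exists_mem_notMem h
  obtain ⟨b, hb1, hb2⟩ := exists_mem_notMem h.symm
  have ha0 : a ≠ 0 := fun h0 => by simp [h0] at ha2
  have hb0 : b ≠ 0 := fun h0 => by simp [h0] at hb2
  refine ⟨b / a, div_ne_zero hb0 ha0, ?_, ?_⟩
  · rw [map_div₀, lt_div_iff₀ (zero_lt_iff.mpr (v.adicValuation_ne_zero ha0)), one_mul]
    exact lt_of_le_of_lt ha1 hb2
  · rw [map_div₀, div_lt_iff₀ (zero_lt_iff.mpr (w.adicValuation_ne_zero ha0)), one_mul]
    exact lt_of_le_of_lt hb1 ha2

/-- A function with a pole at `v` and zeros at finitely many other places. -/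
theorem exists_ord_neg_pos (v : Place K F) (S : Finset (Place K F)) :
    ∃ g : F, g ≠ 0 ∧ v.ord g < 0 ∧ ∀ w ∈ S, w ≠ v → 0 < w.ord g := by
  classical
  induction S using Finset.induction_on with
  | empty =>
      obtain ⟨g, hg, h⟩ := exists_ord_eq v (-1)
      exact ⟨g, hg, by omega, by simp⟩
  | @insert w S hw ih =>
      obtain ⟨g, hg, hgv, hgS⟩ := ih
      by_cases hwv : w = v
      · exact ⟨g, hg, hgv, fun u hu huv => by
          rcases Finset.mem_insert.mp hu with rfl | hu
          · exact absurd hwv huv
          · exact hgS u hu huv⟩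
      rcases lt_trichotomy 0 (w.ord g) with hpos | hzero | hneg
      · exact ⟨g, hg, hgv, fun u hu huv => by
          rcases Finset.mem_insert.mp hu with rfl | hu
          · exact hpos
          · exact hgS u hu huv⟩
      all_goals
        obtain ⟨h, hh0, hhv, hhw⟩ := exists_lt_one_one_lt (Ne.symm hwv)
        rw [adicValuation_lt_one_iff, or_iff_right hh0] at hhw
        rw [← not_le, v.not_adicValuation_le_one_iff] at hhv
        obtain ⟨m, hm⟩ : ∃ m : ℕ, 0 < m ∧ ∀ u ∈ S, -u.ord h < m :=
          ⟨(∑ u ∈ S, (u.ord h).natAbs) + 1, by omega, fun u hu => by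
            have := Finset.single_le_sum (s := S) (f := fun u : Place K F => (u.ord h).natAbs)
              (fun _ _ => Nat.zero_le _) hu
            omega⟩
        obtain ⟨hm0, hm⟩ := hm
        have hgm : g ^ m ≠ 0 := pow_ne_zero _ hg
      · refine ⟨g ^ m * h, mul_ne_zero hgm hh0, ?_, fun u hu huv => ?_⟩
        · rw [v.ord_mul hgm hh0, ord_pow]
          have : (m : ℤ) * v.ord g ≤ 0 :=
            mul_nonpos_of_nonneg_of_nonpos (by omega) hgv.le
          omega
        · rw [u.ord_mul hgm hh0, ord_pow]
          rcases Finset.mem_insert.mp hu with rfl | hu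
          · rw [← hzero, mul_zero, zero_add]; exact hhw
          · have hmu : (m : ℤ) * 1 ≤ (m : ℤ) * u.ord g :=
              mul_le_mul_of_nonneg_left (hgS u hu huv) (by omega)
            have := hm u hu
            omega
      · have hord : ∀ u : Place K F, u.ord g < 0 →
            u.ord (g ^ m / (1 + g ^ m)) = 0 := by
          intro u hu
          have hlt : 1 < u.adicValuation (g ^ m) := by
            rw [← not_le, u.not_adicValuation_le_one_iff, ord_pow]
            exact mul_neg_of_pos_of_neg (by omega) hu
          have hadd : u.adicValuation (1 + g ^ m) = u.adicValuation (g ^ m) :=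
            Valuation.map_add_eq_of_lt_right _ (by simpa using hlt)
          have hne : (1 + g ^ m) ≠ 0 := fun h0 => by
            rw [h0, map_zero] at hadd; exact u.adicValuation_ne_zero hgm hadd.symm
          rw [div_eq_mul_inv, u.ord_mul hgm (inv_ne_zero hne), u.ord_inv]
          have : u.ord (1 + g ^ m) = u.ord (g ^ m) := by simp only [Place.ord, hadd]
          omega
        have hne : (1 + g ^ m) ≠ 0 := by
          intro h0
          have : g ^ m = -1 := by linear_combination h0
          have h' := ord_pow v g m
          rw [this, ord_eq_zero_of_isAlgebraic v (isAlgebraic_one.neg)] at h'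
          rcases mul_eq_zero.mp h'.symm with h1 | h1 <;> omega
        have hE : g ^ m / (1 + g ^ m) ≠ 0 := div_ne_zero hgm hne
        refine ⟨g ^ m / (1 + g ^ m) * h, mul_ne_zero hE hh0, ?_, fun u hu huv => ?_⟩
        · rw [v.ord_mul hE hh0, hord v hgv]; omega
        · rw [u.ord_mul hE hh0]
          rcases Finset.mem_insert.mp hu with rfl | hu
          · rw [hord _ hneg]; omega
          · have hlt : u.adicValuation (g ^ m) < 1 := by
              rw [adicValuation_lt_one_iff, or_iff_right hgm, ord_pow]
              exact mul_pos (by omega) (hgS u hu huv)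
            have hadd : u.adicValuation (1 + g ^ m) = 1 :=
              Valuation.map_one_add_of_lt _ hlt
            have : u.ord (1 + g ^ m) = 0 := by simp [Place.ord, hadd]
            rw [div_eq_mul_inv, u.ord_mul hgm (inv_ne_zero hne), u.ord_inv, this, ord_pow]
            have hmu : (m : ℤ) * 1 ≤ (m : ℤ) * u.ord g :=
              mul_le_mul_of_nonneg_left (hgS u hu huv) (by omega)
            have := hm u hu
            omega

/-- A function which is close to `1` at `v` and close to `0` at the other places of `S`. -/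
theorem exists_near_one (v : Place K F) (S : Finset (Place K F)) (N : ℕ) :
    ∃ e : F, v.adicValuation (e - 1) ≤ exp (-(N : ℤ)) ∧
      ∀ w ∈ S, w ≠ v → w.adicValuation e ≤ exp (-(N : ℤ)) := by
  obtain ⟨g, hg, hgv, hgS⟩ := exists_ord_neg_pos v S
  set m := N + 1
  have hgm : g ^ m ≠ 0 := pow_ne_zero _ hg
  have hlt : 1 < v.adicValuation (g ^ m) := by
    rw [← not_le, v.not_adicValuation_le_one_iff, ord_pow]
    exact mul_neg_of_pos_of_neg (by omega) hgv
  have hadd : v.adicValuation (1 + g ^ m) = v.adicValuation (g ^ m) :=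
    Valuation.map_add_eq_of_lt_right _ (by simpa using hlt)
  have hne : (1 + g ^ m) ≠ 0 := fun h0 => by
    rw [h0, map_zero] at hadd; exact v.adicValuation_ne_zero hgm hadd.symm
  refine ⟨g ^ m / (1 + g ^ m), ?_, fun w hw hwv => ?_⟩
  · have : g ^ m / (1 + g ^ m) - 1 = -(1 + g ^ m)⁻¹ := by field_simp; ring
    rw [this, Valuation.map_neg, map_inv₀, hadd, v.adicValuation_eq_exp_neg_ord hgm, ← exp_neg,
      exp_le_exp, ord_pow]
    have : (m : ℤ) * v.ord g ≤ (m : ℤ) * (-1) :=
      mul_le_mul_of_nonneg_left (by omega) (by omega)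
    omega
  · have hlt : w.adicValuation (g ^ m) < 1 := by
      rw [adicValuation_lt_one_iff, or_iff_right hgm, ord_pow]
      exact mul_pos (by omega) (hgS w hw hwv)
    have hadd : w.adicValuation (1 + g ^ m) = 1 := Valuation.map_one_add_of_lt _ hlt
    rw [map_div₀, hadd, div_one, w.adicValuation_eq_exp_neg_ord hgm, exp_le_exp, ord_pow]
    have : (m : ℤ) * 1 ≤ (m : ℤ) * w.ord g :=
      mul_le_mul_of_nonneg_left (hgS w hw hwv) (by omega)
    omega

/-- Weak approximation for places. -/
theorem approximation (S : Finset (Place K F)) (a : Place K F → F) (n : Place K F → ℤ) :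
    ∃ z : F, ∀ v ∈ S, v.adicValuation (z - a v) ≤ exp (n v) := by
  classical
  set N : ℕ := ∑ v ∈ S, ∑ w ∈ S, ((n v).natAbs + (v.ord (a w)).natAbs)
  have hN : ∀ v ∈ S, ∀ w ∈ S, -(N : ℤ) - v.ord (a w) ≤ n v := by
    intro v hv w hw
    have h1 : (n v).natAbs + (v.ord (a w)).natAbs ≤ N :=
      le_trans (Finset.single_le_sum (s := S)
          (f := fun w : Place K F => (n v).natAbs + (v.ord (a w)).natAbs)
          (fun _ _ => Nat.zero_le _) hw)
        (Finset.single_le_sum (s := S)
          (f := fun v : Place K F => ∑ w ∈ S, ((n v).natAbs + (v.ord (a w)).natAbs))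
          (fun _ _ => Nat.zero_le _) hv)
    omega
  choose e he1 he2 using fun v : Place K F => exists_near_one v S N
  refine ⟨∑ w ∈ S, e w * a w, fun v hv => ?_⟩
  have : ∑ w ∈ S, e w * a w - a v
      = ∑ w ∈ S, (e w - if w = v then 1 else 0) * a w := by
    simp [sub_mul, Finset.sum_sub_distrib, ite_mul, hv]
  rw [this]
  refine Valuation.map_sum_le _ fun w hw => ?_
  rcases eq_or_ne (a w) 0 with h0 | h0
  · simp [h0]
  rw [map_mul, v.adicValuation_eq_exp_neg_ord h0]
  have hb : v.adicValuation (e w - if w = v then 1 else 0) ≤ exp (-(N : ℤ)) := by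
    split_ifs with h
    · subst h; exact he1 w
    · rw [sub_zero]; exact he2 w v hv (Ne.symm h)
  refine le_trans (mul_le_mul_left hb _) ?_
  rw [← exp_add, exp_le_exp]
  have := hN v hv w hw
  omega

end Fermat.Agent.FunctionField
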