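import Mathlib.FieldTheory.IntermediateField.Adjoin.Basic
import Mathlib.RingTheory.AlgebraicIndependent.Basic

/-!
# Function fields in one variable

The class `IsFunctionField K F`, the degree `degFun K x = [F : K⟮x⟯]` of a function, and criteria
for linear independence over `K⟮x⟯`.
-/

set_option autoImplicit false

noncomputable section

open IntermediateField

namespace Fermat.Agent.FunctionField

variable (K F : Type*) [Field K] [Field F] [Algebra K F]

/-- `F` is a function field in one variable over `K`: there is a transcendental element, and `F` is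
finite over `K⟮x⟯` for every transcendental `x`. -/
class IsFunctionField : Prop where
  exists_transcendental : ∃ x : F, Transcendental K x
  finiteDimensional_adjoin : ∀ x : F, Transcendental K x → FiniteDimensional K⟮x⟯ F

variable {K F}

/-- The degree of the function `x`. -/
def degFun (K : Type*) {F : Type*} [Field K] [Field F] [Algebra K F] (x : F) : ℕ :=
  Module.finrank K⟮x⟯ F

/-- `x` and `x⁻¹` generate the same field. -/
theorem adjoin_inv_eq (x : F) : K⟮x⁻¹⟯ = K⟮x⟯ := by
  have h : ∀ y : F, K⟮y⁻¹⟯ ≤ K⟮y⟯ := fun y => by
    rw [adjoin_simple_le_iff]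
    exact inv_mem (mem_adjoin_simple_self K y)
  refine le_antisymm (h x) ?_
  simpa using h x⁻¹

/-- `x` and `x⁻¹` have the same degree. -/
theorem degFun_inv (x : F) : degFun K x⁻¹ = degFun K x := by
  unfold degFun
  rw [adjoin_inv_eq]

/-- A transcendental function has positive degree. -/
theorem degFun_pos [IsFunctionField K F] {x : F} (hx : Transcendental K x) : 0 < degFun K x :=
  haveI := IsFunctionField.finiteDimensional_adjoin x hx
  Module.finrank_pos

/-- The inverse of a transcendental function is transcendental. -/
theorem transcendental_inv {x : F} (hx : Transcendental K x) : Transcendental K x⁻¹ := fun h =>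
  hx (inv_inv x ▸ h.inv)

/-- Clearing denominators for a finite family in `K⟮x⟯`. -/
theorem exists_common_denominator {ι : Type*} (s : Finset ι) (x : F) (c : ι → F)
    (hc : ∀ i ∈ s, c i ∈ K⟮x⟯) :
    ∃ q : Polynomial K, Polynomial.aeval x q ≠ 0 ∧
      ∀ i ∈ s, ∃ p : Polynomial K, c i * Polynomial.aeval x q = Polynomial.aeval x p := by
  classical
  induction s using Finset.induction_on with
  | empty => exact ⟨1, by simp, by simp⟩
  | @insert j s hj ih =>
      obtain ⟨q, hq, hp⟩ := ih fun i hi => hc i (Finset.mem_insert_of_mem hi)
      obtain ⟨r, t, hrt⟩ := (mem_adjoin_simple_iff K (c j)).mp (hc j (Finset.mem_insert_self j s))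
      by_cases ht : Polynomial.aeval x t = 0
      · refine ⟨q, hq, fun i hi => ?_⟩
        rcases Finset.mem_insert.mp hi with rfl | hi
        · exact ⟨0, by simp [hrt, ht]⟩
        · exact hp i hi
      refine ⟨q * t, by simp [hq, ht], fun i hi => ?_⟩
      rcases Finset.mem_insert.mp hi with rfl | hi
      · exact ⟨r * q, by rw [hrt, map_mul, map_mul]; field_simp⟩
      · obtain ⟨p, hp⟩ := hp i hi
        exact ⟨p * t, by rw [map_mul, map_mul, ← mul_assoc, hp]⟩

/-- Linear independence over `K⟮x⟯` may be checked with polynomial coefficients. -/
theorem linearIndependent_of_polynomial {ι : Type*} [Fintype ι] {x : F}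
    (z : ι → F)
    (h : ∀ p : ι → Polynomial K, ∑ i, Polynomial.aeval x (p i) * z i = 0 → ∀ i, p i = 0) :
    LinearIndependent K⟮x⟯ z := by
  rw [Fintype.linearIndependent_iff]
  intro g hg i
  obtain ⟨q, hq, hp⟩ := exists_common_denominator Finset.univ x (fun i => (g i : F))
    fun i _ => (g i).2
  choose p hp using fun i => hp i (Finset.mem_univ i)
  have h0 : ∑ i, Polynomial.aeval x (p i) * z i = 0 := by
    have : ∑ i, (g i : F) * z i = 0 := by simpa [IntermediateField.smul_def] using hg
    calc ∑ i, Polynomial.aeval x (p i) * z i = ∑ i, Polynomial.aeval x q * ((g i : F) * z i) :=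
          Finset.sum_congr rfl fun i _ => by rw [← hp i]; ring
      _ = 0 := by rw [← Finset.mul_sum, this, mul_zero]
  have := hp i
  rw [h p h0 i, map_zero, mul_eq_zero, or_iff_left hq] at this
  exact Subtype.ext this

/-- A family is linearly independent over `K⟮x⟯` if it is independent over `K` modulo `x` times a
submodule stable under multiplication by `x`. -/
theorem linearIndependent_adjoin_of_mod {ι : Type*} [Fintype ι] {x : F} (hx0 : x ≠ 0)
    (z : ι → F) (O : Submodule K F) (hz : ∀ i, z i ∈ O) (hmul : ∀ f ∈ O, x * f ∈ O)
    (h : ∀ c : ι → K, (∃ f ∈ O, ∑ i, c i • z i = x * f) → c = 0) :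
    LinearIndependent K⟮x⟯ z := by
  refine linearIndependent_of_polynomial z fun p hp => ?_
  have hpoly : ∀ (q : Polynomial K) (f : F), f ∈ O → Polynomial.aeval x q * f ∈ O := by
    intro q
    induction q using Polynomial.induction_on' with
    | add a b ha hb => intro f hf; rw [map_add, add_mul]; exact O.add_mem (ha f hf) (hb f hf)
    | monomial n a =>
        intro f hf
        rw [Polynomial.aeval_monomial, ← Algebra.smul_def, smul_mul_assoc]
        refine O.smul_mem a ?_
        induction n with
        | zero => simpa using hf
        | succ n ih => rw [pow_succ', mul_assoc]; exact hmul _ ih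
  suffices ∀ k : ℕ, ∀ p : ι → Polynomial K, ∑ i, Polynomial.aeval x (p i) * z i = 0 →
      ∀ i, (p i).coeff k = 0 from fun i => Polynomial.ext fun k => by simpa using this k p hp i
  intro k
  induction k using Nat.strong_induction_on with
  | _ k ih =>
      intro p hp i
      have hsplit : ∀ j, Polynomial.aeval x (p j) * z j
          = x * (Polynomial.aeval x (p j).divX * z j) + (p j).coeff 0 • z j := fun j => by
        conv_lhs => rw [← Polynomial.X_mul_divX_add (p j)]
        rw [map_add, map_mul, Polynomial.aeval_X, Polynomial.aeval_C, Algebra.smul_def]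
        ring
      have hc : (fun j => (p j).coeff 0) = 0 := by
        refine h _ ⟨-∑ j, Polynomial.aeval x (p j).divX * z j,
          O.neg_mem (O.sum_mem fun j _ => hpoly _ _ (hz j)), ?_⟩
        simp only [hsplit, Finset.sum_add_distrib, ← Finset.mul_sum] at hp
        linear_combination hp
      cases k with
      | zero => exact congrFun hc i
      | succ k =>
          rw [← Polynomial.coeff_divX]
          refine ih k (Nat.lt_succ_self k) (fun j => (p j).divX) ?_ i
          have : ∑ j, x * (Polynomial.aeval x (p j).divX * z j) = 0 := by
            rw [← hp]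
            refine Finset.sum_congr rfl fun j _ => ?_
            rw [hsplit j, show (p j).coeff 0 = 0 from congrFun hc j, zero_smul, add_zero]
          rw [← Finset.mul_sum] at this
          exact (mul_eq_zero.mp this).resolve_left hx0

end Fermat.Agent.FunctionField
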