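import Fermat.Agent.FunctionField.PlaceBasics
import Fermat.Agent.FunctionField.Defs
import Mathlib.RingTheory.DiscreteValuationRing.Basic

/-!
# Existence of places

In a function field in one variable every nontrivial valuation subring containing the constants is
discrete, hence gives a place. In particular every transcendental function has a zero.
-/

set_option autoImplicit false

noncomputable section

open WithZero AlgebraicCurve

namespace Fermat.Agent.FunctionField

variable {K F : Type*} [Field K] [Field F] [Algebra K F]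

variable (A : ValuationSubring F) (hK : ∀ a : K, algebraMap K F a ∈ A)

include hK

theorem valuation_algebraMap {a : K} (ha : a ≠ 0) : A.valuation (algebraMap K F a) = 1 := by
  refine le_antisymm ((A.valuation_le_one_iff _).mpr (hK a)) ?_
  have h := (A.valuation_le_one_iff _).mpr (hK a⁻¹)
  rwa [map_inv₀, map_inv₀, inv_le_one₀] at h
  exact zero_lt_iff.mpr ((Valuation.ne_zero_iff _).mpr (by simpa using ha))

theorem transcendental_of_valuation_lt_one {y : F} (hy0 : y ≠ 0) (hy : A.valuation y < 1) :
    Transcendental K y := by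
  intro h
  have := (A.valuation_le_one_iff _).mpr (mem_valuationSubring_of_isAlgebraic A hK h.inv)
  rw [map_inv₀, inv_le_one₀ (zero_lt_iff.mpr ((Valuation.ne_zero_iff _).mpr hy0))] at this
  exact this.not_gt hy

theorem valuation_aeval_le_one {y : F} (hy : A.valuation y ≤ 1) (p : Polynomial K) :
    A.valuation (Polynomial.aeval y p) ≤ 1 := by
  rw [Polynomial.aeval_eq_sum_range]
  refine Valuation.map_sum_le _ fun i _ => ?_
  rw [Algebra.smul_def, map_mul, map_pow]
  exact mul_le_one' ((A.valuation_le_one_iff _).mpr (hK _)) (pow_le_one' hy i)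

/-- At most `[F : K⟮y⟯]` distinct values of `A.valuation` lie in `(A.valuation y, 1]`. -/
theorem card_values_le {y : F} (hy0 : y ≠ 0)
    [FiniteDimensional (IntermediateField.adjoin K {y}) F] {ι : Type*} [Fintype ι] (z : ι → F)
    (hinj : Function.Injective fun i => A.valuation (z i))
    (hz : ∀ i, A.valuation y < A.valuation (z i)) (hz1 : ∀ i, A.valuation (z i) ≤ 1)
    (hy1 : A.valuation y < 1) : Fintype.card ι ≤ degFun K y := by
  classical
  refine LinearIndependent.fintype_card_le_finrank
    (linearIndependent_adjoin_of_mod hy0 z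
      { carrier := {f | A.valuation f ≤ 1}
        zero_mem' := by simp
        add_mem' := fun {a b} (hf : A.valuation a ≤ 1) (hg : A.valuation b ≤ 1) =>
          (Valuation.map_add A.valuation a b).trans (max_le hf hg)
        smul_mem' := fun c f hf => by
          show A.valuation (c • f) ≤ 1
          rw [Algebra.smul_def, map_mul]
          exact mul_le_one' ((A.valuation_le_one_iff _).mpr (hK c)) hf } hz1 ?_ ?_)
  · intro f hf
    show A.valuation (y * f) ≤ 1
    rw [map_mul]
    exact mul_le_one' hy1.le hf
  · rintro c ⟨f, hf, hsum⟩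
    by_contra hc
    obtain ⟨j, hj⟩ := Function.ne_iff.mp hc
    set s : Finset ι := Finset.univ.filter fun i => c i ≠ 0
    obtain ⟨m, hm, hmax⟩ := s.exists_max_image (fun i => A.valuation (z i))
      ⟨j, Finset.mem_filter.mpr ⟨Finset.mem_univ j, hj⟩⟩
    have hval : ∀ i ∈ s, A.valuation (c i • z i) = A.valuation (z i) := fun i hi => by
      rw [Algebra.smul_def, map_mul, valuation_algebraMap A hK (Finset.mem_filter.mp hi).2,
        one_mul]
    have hlt : ∀ i, i ≠ m → A.valuation (c i • z i) < A.valuation (c m • z m) := by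
      intro i him
      rw [hval m hm]
      by_cases hi : c i = 0
      · rw [hi, zero_smul, map_zero]
        exact lt_of_le_of_lt zero_le (hz m)
      · have hi' : i ∈ s := Finset.mem_filter.mpr ⟨Finset.mem_univ i, hi⟩
        rw [hval i hi']
        exact lt_of_le_of_ne (hmax i hi') fun e => him (hinj e)
    have heq : A.valuation (∑ i, c i • z i) = A.valuation (c m • z m) :=
      Valuation.map_sum_eq_of_lt _ (Finset.mem_univ m) fun i hi =>
        hlt i (by simpa using hi)
    rw [hsum, hval m hm, map_mul] at heq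
    have hle : A.valuation y * A.valuation f ≤ A.valuation y := mul_le_of_le_one_right' hf
    exact (hle.trans_lt (hz m)).ne heq

/-- The powers of an element of valuation `< 1` are cofinal among the values `≤ 1`. -/
theorem exists_pow_valuation_le {y z : F} (hy0 : y ≠ 0) (hy : A.valuation y < 1)
    [FiniteDimensional (IntermediateField.adjoin K {y}) F] (hz0 : z ≠ 0)
    (hz : A.valuation z ≤ 1) : ∃ k : ℕ, A.valuation y ^ k ≤ A.valuation z := by
  classical
  by_contra! h
  -- otherwise `1, z, z², …` are independent over `K⟮y⟯`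
  have hli : LinearIndependent (IntermediateField.adjoin K {y})
      (fun i : Fin (degFun K y + 1) => z ^ (i : ℕ)) := by
    refine linearIndependent_of_polynomial _ fun p hp i => ?_
    by_contra hi
    set s : Finset (Fin (degFun K y + 1)) := Finset.univ.filter fun i => p i ≠ 0
    have hs : i ∈ s := Finset.mem_filter.mpr ⟨Finset.mem_univ i, hi⟩
    obtain ⟨m, hm, hmin⟩ := s.exists_min_image (fun i => (i : ℕ)) ⟨i, hs⟩
    -- valuation of `aeval y q` for `q ≠ 0` is a power of the valuation of `y`
    have hpow : ∀ q : Polynomial K, q ≠ 0 → ∃ k : ℕ,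
        A.valuation (Polynomial.aeval y q) = A.valuation y ^ k := by
      intro q hq
      obtain ⟨r, hr, hr0⟩ := Polynomial.exists_eq_pow_rootMultiplicity_mul_and_not_dvd q hq 0
      rw [map_zero, sub_zero] at hr hr0
      refine ⟨q.rootMultiplicity 0, ?_⟩
      conv_lhs => rw [hr]
      rw [map_mul, map_pow, Polynomial.aeval_X, map_mul, map_pow]
      suffices A.valuation (Polynomial.aeval y r) = 1 by rw [this, mul_one]
      rw [← Polynomial.X_mul_divX_add r, map_add, map_mul, Polynomial.aeval_X,
        Polynomial.aeval_C]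
      have hc : r.coeff 0 ≠ 0 := fun h0 => hr0 (Polynomial.X_dvd_iff.mpr h0)
      rw [Valuation.map_add_eq_of_lt_right, valuation_algebraMap A hK hc]
      rw [valuation_algebraMap A hK hc, map_mul]
      exact lt_of_le_of_lt (mul_le_of_le_one_right' (valuation_aeval_le_one A hK hy.le _)) hy
    obtain ⟨k, hk⟩ := hpow _ (Finset.mem_filter.mp hm).2
    have hlt : ∀ j, j ≠ m → A.valuation (Polynomial.aeval y (p j) * z ^ (j : ℕ))
        < A.valuation (Polynomial.aeval y (p m) * z ^ (m : ℕ)) := by
      intro j hjm
      have hzp : (0 : A.ValueGroup) < A.valuation z := zero_lt_iff.mpr ((Valuation.ne_zero_iff _).mpr hz0)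
      rw [map_mul, map_mul, hk, map_pow, map_pow]
      by_cases hj : p j = 0
      · rw [hj, map_zero, map_zero, zero_mul]
        exact mul_pos (pow_pos (zero_lt_iff.mpr ((Valuation.ne_zero_iff _).mpr hy0)) _) (pow_pos hzp _)
      obtain ⟨d, hd⟩ : ∃ d, (j : ℕ) = (m : ℕ) + (d + 1) := by
        have := hmin j (Finset.mem_filter.mpr ⟨Finset.mem_univ j, hj⟩)
        have hne : (j : ℕ) ≠ m := fun e => hjm (Fin.ext e)
        exact ⟨j - m - 1, by omega⟩
      calc A.valuation (Polynomial.aeval y (p j)) * A.valuation z ^ (j : ℕ)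
          ≤ A.valuation z ^ (j : ℕ) :=
            mul_le_of_le_one_left' (valuation_aeval_le_one A hK hy.le _)
        _ ≤ A.valuation z * A.valuation z ^ (m : ℕ) := by
            rw [hd, pow_add, pow_succ, mul_comm]
            exact mul_le_mul_left (mul_le_of_le_one_left' (pow_le_one' hz d)) _
        _ < A.valuation y ^ k * A.valuation z ^ (m : ℕ) :=
            mul_lt_mul_of_pos_right (h k) (pow_pos hzp _)
    have heq := Valuation.map_sum_eq_of_lt A.valuation
      (f := fun j => Polynomial.aeval y (p j) * z ^ (j : ℕ)) (Finset.mem_univ m)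
      fun j hj => hlt j (by simpa using hj)
    rw [hp, map_zero, map_mul, hk] at heq
    exact mul_ne_zero (pow_ne_zero k ((Valuation.ne_zero_iff _).mpr hy0))
      ((Valuation.ne_zero_iff _).mpr (pow_ne_zero _ hz0)) heq.symm
  have := (Fintype.card_fin _).symm.trans_le hli.fintype_card_le_finrank
  unfold degFun at this
  omega

/-- A nontrivial valuation subring of a function field containing the constants is a principal ideal
ring. -/
theorem isPrincipalIdealRing_valuationSubring [IsFunctionField K F] (hA : A ≠ ⊤) :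
    IsPrincipalIdealRing A := by
  classical
  obtain ⟨y, hy0, hy⟩ : ∃ y : F, y ≠ 0 ∧ A.valuation y < 1 := by
    obtain ⟨a, ha⟩ : ∃ a : F, a ∉ A := by
      by_contra! h
      exact hA (SetLike.ext fun f => ⟨fun _ => ValuationSubring.mem_top f, fun _ => h f⟩)
    have ha0 : a ≠ 0 := fun h0 => ha (h0 ▸ zero_mem _)
    refine ⟨a⁻¹, inv_ne_zero ha0, ?_⟩
    rw [map_inv₀, inv_lt_one₀ (zero_lt_iff.mpr ((Valuation.ne_zero_iff _).mpr ha0))]
    exact not_le.mp fun h => ha ((A.valuation_le_one_iff a).mp h)
  have := IsFunctionField.finiteDimensional_adjoin y (transcendental_of_valuation_lt_one A hK hy0 hy)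
  have hy0' : (0 : A.ValueGroup) < A.valuation y := zero_lt_iff.mpr ((Valuation.ne_zero_iff _).mpr hy0)
  -- an element of maximal value `< 1`
  set T : Set A.ValueGroup := Set.Ioc (A.valuation y) 1
  have hTfin : T.Finite := by
    by_contra hT
    obtain ⟨t, htT, htc⟩ := (Set.not_finite.mp hT).exists_subset_card_eq (degFun K y + 1)
    choose z hz using fun i : t => A.valuation_surjective i.1
    have := card_values_le A hK hy0 z
      (fun i j h => Subtype.ext (by simpa only [hz] using h))
      (fun i => (hz i).symm ▸ (htT i.2).1) (fun i => (hz i).symm ▸ (htT i.2).2) hy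
    rw [Fintype.card_coe, htc] at this
    omega
  obtain ⟨γ, hγ, hγmax⟩ : ∃ γ ∈ insert (A.valuation y) (T \ {1}),
      ∀ δ ∈ insert (A.valuation y) (T \ {1}), δ ≤ γ :=
    Set.exists_max_image _ id ((hTfin.sdiff).insert _) ⟨_, Set.mem_insert _ _⟩
  obtain ⟨π, rfl⟩ := A.valuation_surjective γ
  have hπ1 : A.valuation π < 1 := by
    rcases Set.mem_insert_iff.mp hγ with h | h
    · rw [h]; exact hy
    · exact lt_of_le_of_ne h.1.2 h.2
  have hπy : A.valuation y ≤ A.valuation π := hγmax _ (Set.mem_insert _ _)
  have hmax : ∀ δ : A.ValueGroup, δ < 1 → δ ≤ A.valuation π := fun δ hδ => by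
    by_cases h : A.valuation y < δ
    · exact hγmax δ (Set.mem_insert_of_mem _ ⟨⟨h, hδ.le⟩, hδ.ne⟩)
    · exact (not_lt.mp h).trans hπy
  have hπpos : 0 < A.valuation π := hy0'.trans_le hπy
  have hπ0 : π ≠ 0 := fun h0 => by simp [h0] at hπpos
  obtain ⟨N, hN⟩ : ∃ N : ℕ, A.valuation π ^ N ≤ A.valuation y := by
    by_contra! h
    have hinj : Function.Injective (fun i : Fin (degFun K y + 1) => A.valuation (π ^ (i : ℕ))) :=
      fun i j hij => by
        simp only [map_pow] at hij
        exact Fin.ext ((pow_right_strictAnti₀ hπpos hπ1).injective hij)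
    have := card_values_le A hK hy0 (fun i : Fin (degFun K y + 1) => π ^ (i : ℕ)) hinj
      (fun i => by rw [map_pow]; exact h i)
      (fun i => by rw [map_pow]; exact pow_le_one' hπ1.le i) hy
    rw [Fintype.card_fin] at this
    omega
  have hπA : π ∈ A := (A.valuation_le_one_iff π).mp hπ1.le
  have hirr : Irreducible (⟨π, hπA⟩ : A) := by
    have hnu : ¬ IsUnit (⟨π, hπA⟩ : A) := fun h =>
      hπ1.ne ((A.valuation_eq_one_iff ⟨π, hπA⟩).mp h)
    refine ⟨hnu, fun a b hab => ?_⟩
    by_contra! hc
    have h1 : ∀ c : A, ¬ IsUnit c → A.valuation (c : F) ≤ A.valuation π := fun c hc =>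
      hmax _ (lt_of_le_of_ne (A.valuation_le_one c) fun h => hc ((A.valuation_eq_one_iff c).mpr h))
    have hv : A.valuation π = A.valuation (a : F) * A.valuation (b : F) := by
      rw [← map_mul]
      exact congrArg (fun c : A => A.valuation (c : F)) hab
    have : A.valuation π ≤ A.valuation π * A.valuation π :=
      le_trans hv.le (mul_le_mul' (h1 a hc.1) (h1 b hc.2))
    exact absurd this (not_le.mpr (mul_lt_of_lt_one_left hπpos hπ1))
  have : IsDiscreteValuationRing A := by
    refine IsDiscreteValuationRing.ofHasUnitMulPowIrreducibleFactorization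
      ⟨⟨π, hπA⟩, hirr, fun {f} hf => ?_⟩
    have hf0 : (f : F) ≠ 0 := by simpa using hf
    obtain ⟨k, hk⟩ := exists_pow_valuation_le A hK hy0 hy hf0 (A.valuation_le_one f)
    have hex : ∃ n, A.valuation π ^ n ≤ A.valuation (f : F) :=
      ⟨N * k, le_trans (by rw [pow_mul]; exact pow_le_pow_left' hN k) hk⟩
    set n := Nat.find hex with hn
    have heq : A.valuation (f : F) = A.valuation π ^ n := by
      refine le_antisymm ?_ (Nat.find_spec hex)
      rcases Nat.eq_zero_or_pos n with h0 | h0
      · rw [h0, pow_zero]; exact A.valuation_le_one f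
      by_contra hlt
      have h1 : A.valuation π ^ n < A.valuation (f : F) := not_le.mp hlt
      have h2 : A.valuation (f : F) < A.valuation π ^ (n - 1) :=
        not_le.mp (Nat.find_min hex (Nat.sub_lt h0 Nat.one_pos))
      have hp : 0 < A.valuation π ^ (n - 1) := pow_pos hπpos _
      have h3 := hmax (A.valuation (f : F) / A.valuation π ^ (n - 1))
        (by rwa [div_lt_one₀ hp])
      rw [div_le_iff₀ hp, ← pow_succ', show n - 1 + 1 = n by omega] at h3
      exact h3.not_gt h1
    refine ⟨n, ?_⟩
    obtain ⟨u, hu⟩ := (A.valuation_eq_iff _ _).mp (heq.trans (map_pow A.valuation π n).symm)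
    exact ⟨u, Subtype.ext (by rw [← hu]; push_cast; ring)⟩
  infer_instance

/-- The place attached to a nontrivial valuation subring of a function field. -/
def placeOfValuationSubring [IsFunctionField K F] (hA : A ≠ ⊤) : Place K F where
  toValuationSubring := A
  algebraMap_mem' := hK
  ne_top' := hA
  isPrincipalIdealRing' := isPrincipalIdealRing_valuationSubring A hK hA

omit hK

/-- A transcendental element has a zero. -/
theorem exists_place_ord_pos [IsFunctionField K F] {x : F} (hx : Transcendental K x) :
    ∃ v : Place K F, 0 < v.ord x := by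
  classical
  let φ : Polynomial K →ₐ[K] F := Polynomial.aeval x
  have hφ : Function.Injective φ := transcendental_iff_injective.mp hx
  let e : Polynomial K ≃+* φ.toRingHom.range :=
    RingEquiv.ofBijective φ.toRingHom.rangeRestrict
      ⟨fun a b h => hφ (congrArg Subtype.val h), φ.toRingHom.rangeRestrict_surjective⟩
  let P : Ideal φ.toRingHom.range :=
    (Ideal.span {(Polynomial.X : Polynomial K)}).comap e.symm.toRingHom
  have : (Ideal.span {(Polynomial.X : Polynomial K)}).IsPrime :=
    (Ideal.span_singleton_prime Polynomial.X_ne_zero).mpr Polynomial.prime_X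
  have hP : P.IsPrime := Ideal.comap_isPrime _ _
  obtain ⟨B, hB⟩ := (LocalSubring.ofPrime φ.toRingHom.range P).exists_le_valuationSubring
  have hle : φ.toRingHom.range ≤ B.toSubring :=
    (LocalSubring.le_ofPrime _ _).trans hB.1
  have hK : ∀ a : K, algebraMap K F a ∈ B := fun a =>
    hle ⟨Polynomial.C a, Polynomial.aeval_C x a⟩
  have hxB : x ∈ B := hle ⟨Polynomial.X, Polynomial.aeval_X x⟩
  have hx0 : x ≠ 0 := fun h0 => hx (h0 ▸ isAlgebraic_zero)
  have hnu : ¬ IsUnit (⟨x, hxB⟩ : B) := by
    intro hu
    have hxr : x ∈ φ.toRingHom.range := ⟨Polynomial.X, Polynomial.aeval_X x⟩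
    have hxl : x ∈ (LocalSubring.ofPrime φ.toRingHom.range P).toSubring :=
      LocalSubring.le_ofPrime _ _ hxr
    have h1 : IsUnit (Subring.inclusion hB.1 ⟨x, hxl⟩) := hu
    have h2 := hB.2.1 _ h1
    have h3 : IsUnit (algebraMap φ.toRingHom.range
        (LocalSubring.ofPrime φ.toRingHom.range P).toSubring ⟨x, hxr⟩) := h2
    rw [IsLocalization.AtPrime.isUnit_to_map_iff _ P] at h3
    refine h3 ?_
    show e.symm ⟨x, hxr⟩ ∈ Ideal.span {(Polynomial.X : Polynomial K)}
    have : e.symm ⟨x, hxr⟩ = Polynomial.X := by
      rw [RingEquiv.symm_apply_eq]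
      exact Subtype.ext (Polynomial.aeval_X x).symm
    rw [this]
    exact Ideal.mem_span_singleton_self _
  have hBtop : B ≠ ⊤ := by
    rintro rfl
    refine hnu (isUnit_iff_exists_inv.mpr ⟨⟨x⁻¹, ValuationSubring.mem_top _⟩, ?_⟩)
    exact Subtype.ext (mul_inv_cancel₀ hx0)
  refine ⟨placeOfValuationSubring B hK hBtop, ?_⟩
  set v := placeOfValuationSubring B hK hBtop
  have h1 : v.adicValuation x < 1 := by
    refine lt_of_le_of_ne (v.adicValuation_le_one_of_mem hxB) fun h => hnu ?_
    exact (v.adicValuation_coe_eq_one_iff ⟨x, hxB⟩).mp h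
  exact ((adicValuation_lt_one_iff v).mp h1).resolve_left hx0

end Fermat.Agent.FunctionField
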