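import Fermat.Agent.FunctionField.RiemannRoch
import Mathlib.LinearAlgebra.Dual.Lemmas

/-!
# Weil differentials

Weil differentials of a function field in one variable are the functionals on repartitions which
kill some `A(D) + F`. They form a one-dimensional space over `F`, and the divisor `W` of a non-zero
one satisfies the duality `i(D) = l(W - D)`.
-/

set_option autoImplicit false

noncomputable section

open WithZero AlgebraicCurve

namespace Fermat.Agent.FunctionField

variable {K F : Type*} [Field K] [Field F] [Algebra K F]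

variable (K F) in
/-- Functionals on repartitions; those vanishing on some `A(D) + F` are the Weil differentials. -/
abbrev RepDual : Type _ := Module.Dual K ↥(repartitions K F)

/-- Functionals vanishing on `A(D) + F`. -/
def weilSpace (D : Divisor K F) : Submodule K (RepDual K F) :=
  (repartitionsOf D ⊔ principalRepartitions K F).dualAnnihilator

/-- Functionals in `weilSpace D` vanish on `A(D)` and on principal repartitions. -/
theorem mem_weilSpace {D : Divisor K F} {ω : RepDual K F} :
    ω ∈ weilSpace D ↔
      (∀ α ∈ repartitionsOf D, ω α = 0) ∧ ∀ α ∈ principalRepartitions K F, ω α = 0 := by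
  rw [weilSpace, Submodule.mem_dualAnnihilator]
  refine ⟨fun h => ⟨fun α hα => h α (Submodule.mem_sup_left hα),
    fun α hα => h α (Submodule.mem_sup_right hα)⟩, fun h α hα => ?_⟩
  obtain ⟨β, hβ, γ, hγ, rfl⟩ := Submodule.mem_sup.mp hα
  rw [map_add, h.1 β hβ, h.2 γ hγ, add_zero]

theorem weilSpace_antitone {D E : Divisor K F} (h : D ≤ E) : weilSpace E ≤ weilSpace D :=
  Submodule.dualAnnihilator_anti (sup_le_sup_right (repartitionsOf_mono h) _)

/-- Multiplication of a repartition by a function. -/
def mulRep : F →ₗ[K] ↥(repartitions K F) →ₗ[K] ↥(repartitions K F) where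
  toFun f := (LinearMap.lsmul F ↥(repartitions K F) f).restrictScalars K
  map_add' f g := LinearMap.ext fun α => add_smul f g α
  map_smul' c f := LinearMap.ext fun α => smul_assoc c f α

theorem mulRep_apply (f : F) (α : ↥(repartitions K F)) (v : Place K F) :
    (mulRep f α : Place K F → F) v = f * (α : Place K F → F) v := rfl

theorem mulRep_mem_principal (f : F) {α : ↥(repartitions K F)}
    (h : α ∈ principalRepartitions K F) : mulRep f α ∈ principalRepartitions K F := by
  obtain ⟨a, ha⟩ := mem_principalRepartitions_iff.mp h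
  refine mem_principalRepartitions_iff.mpr ⟨f * a, funext fun v => ?_⟩
  rw [mulRep_apply, ha]

/-- The product `f ω` of a function and a functional. -/
def weilSmul (f : F) (ω : RepDual K F) : RepDual K F := ω.comp (mulRep f)

theorem weilSmul_apply (f : F) (ω : RepDual K F) (α : ↥(repartitions K F)) :
    weilSmul f ω α = ω (mulRep f α) := rfl

theorem weilSmul_weilSmul (f g : F) (ω : RepDual K F) :
    weilSmul f (weilSmul g ω) = weilSmul (g * f) ω := by
  refine LinearMap.ext fun α => ?_
  simp only [weilSmul_apply]
  congr 1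
  refine Subtype.ext (funext fun v => ?_)
  simp only [mulRep_apply]
  ring

@[simp]
theorem weilSmul_one (ω : RepDual K F) : weilSmul (1 : F) ω = ω := by
  refine LinearMap.ext fun α => ?_
  rw [weilSmul_apply]
  congr 1
  exact Subtype.ext (funext fun v => by rw [mulRep_apply, one_mul])

@[simp]
theorem weilSmul_zero (ω : RepDual K F) : weilSmul (0 : F) ω = 0 := by
  refine LinearMap.ext fun α => ?_
  rw [weilSmul_apply, map_zero, LinearMap.zero_apply, map_zero, LinearMap.zero_apply]

/-- `f ↦ f ω` as a linear map. -/
def weilSmulLeft (ω : RepDual K F) : F →ₗ[K] RepDual K F :=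
  LinearMap.lcomp K K (mulRep (K := K) (F := F) 1) |>.comp
    ((LinearMap.llcomp K ↥(repartitions K F) ↥(repartitions K F) K ω).comp mulRep)

theorem weilSmulLeft_apply (ω : RepDual K F) (f : F) : weilSmulLeft ω f = weilSmul f ω := by
  refine LinearMap.ext fun α => ?_
  show ω (mulRep f (mulRep 1 α)) = ω (mulRep f α)
  congr 2
  exact Subtype.ext (funext fun v => by rw [mulRep_apply, one_mul])

variable [IsFunctionField K F]

theorem weilSmul_mem {ω : RepDual K F} {D D' : Divisor K F} (h : ω ∈ weilSpace D) {f : F}
    (hf : f ≠ 0) (hD : D' ≤ D + divFun K f) : weilSmul f ω ∈ weilSpace D' := by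
  rw [mem_weilSpace] at h ⊢
  refine ⟨fun α hα => h.1 _ fun v => ?_, fun α hα => h.2 _ (mulRep_mem_principal f hα)⟩
  rw [mulRep_apply, map_mul, v.adicValuation_eq_exp_neg_ord hf]
  refine (mul_le_mul_right (hα v) _).trans ?_
  have := Finsupp.le_def.mp hD v
  rw [Finsupp.add_apply, divFun_apply] at this
  rw [← exp_add, exp_le_exp]
  omega

theorem weilSmul_mem_of_mem_riemannRochSpace {ω : RepDual K F} {D B : Divisor K F}
    (h : ω ∈ weilSpace D) {f : F} (hf : f ∈ riemannRochSpace B) :
    weilSmul f ω ∈ weilSpace (D - B) := by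
  rcases eq_or_ne f 0 with rfl | hf0
  · simp
  refine weilSmul_mem h hf0 (Finsupp.le_def.mpr fun v => ?_)
  have := ((mem_riemannRochSpace_iff.mp hf) v).resolve_left hf0
  simp only [Finsupp.sub_apply, Finsupp.add_apply, divFun_apply]
  omega

theorem finite_finrank_weilSpace (D : Divisor K F) :
    Module.Finite K (weilSpace D) ∧ Module.finrank K (weilSpace D) = index D := by
  have e := (repartitionsOf D ⊔ principalRepartitions K F).dualQuotEquivDualAnnihilator
  exact ⟨Module.Finite.equiv e, e.finrank_eq.symm.trans Subspace.dual_finrank_eq⟩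

instance finite_weilSpace (D : Divisor K F) : Module.Finite K (weilSpace D) :=
  (finite_finrank_weilSpace D).1

/-- The functionals killing `A(D) + F` form a space of dimension `i(D)`. -/
theorem finrank_weilSpace (D : Divisor K F) : Module.finrank K (weilSpace D) = index D :=
  (finite_finrank_weilSpace D).2

/-- Weil differentials form a one-dimensional space over `F`. -/
theorem exists_weilSmul_eq {ω ω' : RepDual K F} {D D' : Divisor K F} (hω : ω ∈ weilSpace D)
    (hω' : ω' ∈ weilSpace D') (h0 : ω ≠ 0) : ∃ f : F, weilSmul f ω = ω' := by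
  classical
  by_contra hne
  push Not at hne
  set E := D ⊓ D'
  obtain ⟨v⟩ := nonempty_place K F
  set k : ℕ := (Divisor.degree E).natAbs + 3 * genusFF K F + 1
  set B : Divisor K F := k • Finsupp.single v (1 : ℤ)
  have hE : ω ∈ weilSpace E := weilSpace_antitone inf_le_left hω
  have hE' : ω' ∈ weilSpace E := weilSpace_antitone inf_le_right hω'
  let φ : riemannRochSpace B × riemannRochSpace B →ₗ[K] RepDual K F :=
    ((weilSmulLeft ω).comp (riemannRochSpace B).subtype).coprod
      ((weilSmulLeft ω').comp (riemannRochSpace B).subtype)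
  have hφ : ∀ p, φ p ∈ weilSpace (E - B) := fun p => by
    show weilSmulLeft ω (p.1 : F) + weilSmulLeft ω' (p.2 : F) ∈ weilSpace (E - B)
    rw [weilSmulLeft_apply, weilSmulLeft_apply]
    exact add_mem (weilSmul_mem_of_mem_riemannRochSpace hE p.1.2)
      (weilSmul_mem_of_mem_riemannRochSpace hE' p.2.2)
  have hinj : Function.Injective (φ.codRestrict _ hφ) := by
    rw [injective_iff_map_eq_zero]
    rintro ⟨f, g⟩ hfg
    have h1 : weilSmul (f : F) ω + weilSmul (g : F) ω' = 0 := by
      rw [← weilSmulLeft_apply, ← weilSmulLeft_apply]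
      exact congrArg Subtype.val hfg
    by_cases hg : (g : F) = 0
    · rw [hg, weilSmul_zero, add_zero] at h1
      by_cases hf : (f : F) = 0
      · exact Prod.ext (Subtype.ext hf) (Subtype.ext hg)
      refine absurd ?_ h0
      have h2 := congrArg (weilSmul (f : F)⁻¹) h1
      rw [weilSmul_weilSmul, mul_inv_cancel₀ hf, weilSmul_one] at h2
      rw [h2]
      exact LinearMap.zero_comp _
    · refine absurd ?_ (hne (-(f : F) * (g : F)⁻¹))
      have h2 := congrArg (weilSmul (g : F)⁻¹) (eq_neg_of_add_eq_zero_right h1)
      rw [weilSmul_weilSmul, mul_inv_cancel₀ hg, weilSmul_one] at h2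
      rw [h2, ← weilSmul_weilSmul]
      refine congrArg (weilSmul _) ?_
      rw [← weilSmulLeft_apply, ← weilSmulLeft_apply, map_neg]
  have h1 := LinearMap.finrank_le_finrank_of_injective hinj
  rw [Module.finrank_prod, finrank_weilSpace] at h1
  change ell B + ell B ≤ index (E - B) at h1
  have h2 := ell_sub_index (E - B)
  have h3 := riemann_inequality B
  have hdeg : Divisor.degree B = (k : ℤ) * v.deg := by
    simp [B]
  have h4 : (k : ℤ) ≤ (k : ℤ) * v.deg :=
    le_mul_of_one_le_right (by omega) (by exact_mod_cast deg_pos v)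
  rw [map_sub] at h2
  have h5 : ell (E - B) = 0 := ell_eq_zero_of_degree_neg (by rw [map_sub]; omega)
  omega

/-- The divisor of a Weil differential is canonical: if `ω ≠ 0` kills `A(W) + F` and `W` is the
largest such divisor, then `i(D) = l(W - D)` for every `D`. -/
theorem index_eq_ell_of_maximal {ω : RepDual K F} {W : Divisor K F} (hω0 : ω ≠ 0)
    (hW : ω ∈ weilSpace W) (hmax : ∀ D : Divisor K F, ω ∈ weilSpace D → D ≤ W)
    (D : Divisor K F) : index D = ell (W - D) := by
  let φ : riemannRochSpace (W - D) →ₗ[K] weilSpace D :=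
    ((weilSmulLeft ω).comp (riemannRochSpace (W - D)).subtype).codRestrict (weilSpace D) fun f => by
      show weilSmulLeft ω (f : F) ∈ weilSpace D
      rw [weilSmulLeft_apply]
      simpa using weilSmul_mem_of_mem_riemannRochSpace hW f.2
  have hinj : Function.Injective φ := by
    rw [injective_iff_map_eq_zero]
    intro f hf
    by_contra hne
    have hf0 : (f : F) ≠ 0 := fun h => hne (Subtype.ext h)
    have h1 : weilSmul (f : F) ω = 0 := by
      rw [← weilSmulLeft_apply]; exact congrArg Subtype.val hf
    have h2 := congrArg (weilSmul (f : F)⁻¹) h1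
    rw [weilSmul_weilSmul, mul_inv_cancel₀ hf0, weilSmul_one] at h2
    exact hω0 (h2.trans (LinearMap.zero_comp _))
  have hsurj : Function.Surjective φ := by
    intro η
    obtain ⟨f, hf⟩ := exists_weilSmul_eq hW η.2 hω0
    refine ⟨⟨f, mem_riemannRochSpace_iff.mpr fun v => or_iff_not_imp_left.mpr fun hf0 => ?_⟩,
      Subtype.ext ((weilSmulLeft_apply ω f).trans hf)⟩
    have h1 : ω ∈ weilSpace (D - divFun K f) := by
      have := weilSmul_mem (f := f⁻¹) (D' := D - divFun K f) η.2 (inv_ne_zero hf0)
        (by rw [divFun_inv, sub_eq_add_neg])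
      rwa [← hf, weilSmul_weilSmul, mul_inv_cancel₀ hf0, weilSmul_one] at this
    have h2 := Finsupp.le_def.mp (hmax _ h1) v
    simp only [Finsupp.sub_apply, divFun_apply] at h2 ⊢
    omega
  rw [← finrank_weilSpace]
  exact (LinearEquiv.ofBijective φ ⟨hinj, hsurj⟩).finrank_eq.symm

omit [IsFunctionField K F] in
/-- `l(W) = g` for a canonical divisor `W`. -/
theorem canonical_ell {W : Divisor K F} (hW : ∀ D : Divisor K F, index D = ell (W - D)) :
    ell W = genusFF K F := by
  have := hW 0
  rw [sub_zero] at this
  exact this.symm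

omit [IsFunctionField K F] in
/-- `i(W) = l(0)` for a canonical divisor `W`. -/
theorem canonical_index {W : Divisor K F} (hW : ∀ D : Divisor K F, index D = ell (W - D)) :
    index W = ell (0 : Divisor K F) := by
  have := hW W
  rwa [sub_self] at this

/-- A canonical divisor has degree `2g - 2`. -/
theorem canonical_degree [IsAlgClosed K] {W : Divisor K F}
    (hW : ∀ D : Divisor K F, index D = ell (W - D)) :
    Divisor.degree W = 2 * (genusFF K F : ℤ) - 2 := by
  have := riemann_roch W
  rw [canonical_ell hW, canonical_index hW, ell_zero_eq_one] at this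
  omega

end Fermat.Agent.FunctionField
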