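import Mathlib.LinearAlgebra.Dimension.RankNullity
import Mathlib.RingTheory.Finiteness.Basic
import Mathlib.RingTheory.Noetherian.Basic
import Mathlib.LinearAlgebra.FiniteDimensional.Lemmas
import Mathlib.LinearAlgebra.Isomorphisms

/-!
# Relative dimension

`RelDim A B d` says that `A ≤ B` and `B / A` has dimension `d`; it is additive in towers and
satisfies the second isomorphism theorem.
-/

set_option autoImplicit false

noncomputable section

namespace Fermat.Agent.FunctionField

variable {K M W : Type*} [Field K] [AddCommGroup M] [Module K M] [AddCommGroup W] [Module K W]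

/-- `A ≤ B` and `B / A` has finite dimension `d`. -/
structure RelDim (A B : Submodule K M) (d : ℕ) : Prop where
  le : A ≤ B
  finite : Module.Finite K (B ⧸ A.submoduleOf B)
  finrank_eq : Module.finrank K (B ⧸ A.submoduleOf B) = d

namespace RelDim

variable {A B C P : Submodule K M} {a b d : ℕ}

/-- A surjection from `B` with kernel `A` computes the relative dimension. -/
theorem of_surjective (hAB : A ≤ B) (f : B →ₗ[K] W) (hf : Function.Surjective f)
    (hker : LinearMap.ker f = A.submoduleOf B) [Module.Finite K W] :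
    RelDim A B (Module.finrank K W) := by
  let e : (B ⧸ A.submoduleOf B) ≃ₗ[K] W :=
    (Submodule.quotEquivOfEq _ _ hker.symm).trans (f.quotKerEquivOfSurjective hf)
  exact ⟨hAB, Module.Finite.equiv e.symm, e.finrank_eq⟩

/-- The relative dimension is unique. -/
theorem unique (h : RelDim A B a) (h' : RelDim A B b) : a = b :=
  h.finrank_eq.symm.trans h'.finrank_eq

/-- `A / A` has dimension zero. -/
theorem refl (A : Submodule K M) : RelDim A A 0 := by
  have : Subsingleton (A ⧸ A.submoduleOf A) :=
    Submodule.Quotient.subsingleton_iff.mpr (Submodule.submoduleOf_self A)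
  exact ⟨le_rfl, inferInstance, Module.finrank_zero_of_subsingleton⟩

/-- The map `B / A → C / A`. -/
def inclQ (A : Submodule K M) (h : B ≤ C) :
    (B ⧸ A.submoduleOf B) →ₗ[K] (C ⧸ A.submoduleOf C) :=
  (A.submoduleOf B).mapQ (A.submoduleOf C) (Submodule.inclusion h) fun _ hx => hx

/-- The map `C / A → C / B`. -/
def projQ (C : Submodule K M) (h : A ≤ B) :
    (C ⧸ A.submoduleOf C) →ₗ[K] (C ⧸ B.submoduleOf C) :=
  (A.submoduleOf C).mapQ (B.submoduleOf C) LinearMap.id fun _ hx => h hx

theorem inclQ_injective (A : Submodule K M) (h : B ≤ C) : Function.Injective (inclQ A h) := by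
  rw [← LinearMap.ker_eq_bot, LinearMap.ker_eq_bot']
  intro x
  obtain ⟨x, rfl⟩ := Submodule.mkQ_surjective _ x
  intro hx
  have hx' : Submodule.inclusion h x ∈ A.submoduleOf C := (Submodule.Quotient.mk_eq_zero _).mp hx
  exact (Submodule.Quotient.mk_eq_zero _).mpr hx'

theorem projQ_surjective (C : Submodule K M) (h : A ≤ B) : Function.Surjective (projQ C h) := by
  intro x
  obtain ⟨x, rfl⟩ := Submodule.mkQ_surjective _ x
  exact ⟨Submodule.Quotient.mk x, rfl⟩

theorem ker_projQ (hAB : A ≤ B) (hBC : B ≤ C) :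
    LinearMap.ker (projQ C hAB) = LinearMap.range (inclQ A hBC) := by
  ext x
  obtain ⟨x, rfl⟩ := Submodule.mkQ_surjective _ x
  constructor
  · intro hx
    have hx' : (x : M) ∈ B := (Submodule.Quotient.mk_eq_zero (B.submoduleOf C)).mp hx
    exact ⟨Submodule.Quotient.mk ⟨(x : M), hx'⟩, rfl⟩
  · rintro ⟨y, hy⟩
    obtain ⟨y, rfl⟩ := Submodule.mkQ_surjective _ y
    have h1 : (y : M) - x ∈ B := hAB ((Submodule.Quotient.eq (A.submoduleOf C)).mp hy)
    refine (Submodule.Quotient.mk_eq_zero (B.submoduleOf C)).mpr ?_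
    show (x : M) ∈ B
    simpa using B.sub_mem y.2 h1

/-- The relative dimension is additive in towers. -/
theorem trans (h1 : RelDim A B a) (h2 : RelDim B C b) : RelDim A C (a + b) := by
  have := h1.finite
  have := h2.finite
  have hr : Module.Finite K (LinearMap.ker (projQ C h1.le)) := by
    rw [ker_projQ h1.le h2.le]
    exact Module.Finite.range _
  have hrange : Module.Finite K ((↥C ⧸ A.submoduleOf C) ⧸ LinearMap.ker (projQ C h1.le)) :=
    Module.Finite.equiv ((projQ C h1.le).quotKerEquivOfSurjective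
      (projQ_surjective C h1.le)).symm
  have hfin : Module.Finite K (C ⧸ A.submoduleOf C) :=
    Module.Finite.of_submodule_quotient (LinearMap.ker (projQ C h1.le))
  refine ⟨h1.le.trans h2.le, hfin, ?_⟩
  have := LinearMap.finrank_range_add_finrank_ker (projQ C h1.le)
  rw [LinearMap.range_eq_top.mpr (projQ_surjective C h1.le), finrank_top,
    ker_projQ h1.le h2.le, LinearMap.finrank_range_of_inj (inclQ_injective A h2.le),
    h1.finrank_eq, h2.finrank_eq] at this
  omega

/-- Both steps of a finite-dimensional subquotient are finite-dimensional. -/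
theorem split (h : RelDim A C d) (hAB : A ≤ B) (hBC : B ≤ C) :
    ∃ a b, a + b = d ∧ RelDim A B a ∧ RelDim B C b := by
  have := h.finite
  have h1 : RelDim A B _ := ⟨hAB, Module.Finite.of_injective _ (inclQ_injective A hBC), rfl⟩
  have h2 : RelDim B C _ := ⟨hBC, Module.Finite.of_surjective _ (projQ_surjective C hAB), rfl⟩
  exact ⟨_, _, (h1.trans h2).unique h, h1, h2⟩

/-- Second isomorphism theorem. -/
theorem sup (h : RelDim (A ⊓ B) B d) : RelDim A (A ⊔ B) d := by
  have e := LinearMap.quotientInfEquivSupQuotient B A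
  have hfin := h.finite
  have heq : (B ⊓ A).submoduleOf B = (A ⊓ B).submoduleOf B := by rw [inf_comm]
  let e' := (Submodule.quotEquivOfEq _ _ heq.symm).trans e
  have hsup : B ⊔ A = A ⊔ B := sup_comm _ _
  refine hsup ▸ ⟨le_sup_right, Module.Finite.equiv e', ?_⟩
  exact e'.finrank_eq.symm.trans h.finrank_eq

/-- Second isomorphism theorem, reversed. -/
theorem inf (h : RelDim A (A ⊔ B) d) : RelDim (A ⊓ B) B d := by
  have e := LinearMap.quotientInfEquivSupQuotient B A
  rw [sup_comm] at h
  have hfin := h.finite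
  have heq : (B ⊓ A).submoduleOf B = (A ⊓ B).submoduleOf B := by rw [inf_comm]
  let e' := (Submodule.quotEquivOfEq _ _ heq.symm).trans e
  refine ⟨inf_le_right, @Module.Finite.equiv _ _ _ _ _ _ _ _ hfin e'.symm, ?_⟩
  exact e'.finrank_eq.trans h.finrank_eq

/-- The relative dimension after adding `P` to both sides. -/
theorem sup_right_aux (hAC : A ≤ C) (hd : RelDim A C d) (hl : RelDim (A ⊓ P) (C ⊓ P) a) :
    ∃ e, e + a = d ∧ RelDim (A ⊔ P) (C ⊔ P) e := by
  have h1 : RelDim A (A ⊔ C ⊓ P) a := by
    refine RelDim.sup ?_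
    have : A ⊓ (C ⊓ P) = A ⊓ P := by
      rw [← inf_assoc, inf_eq_left.mpr hAC]
    rwa [this]
  obtain ⟨x, e, hxe, hx, he⟩ := hd.split (B := A ⊔ C ⊓ P) le_sup_left (sup_le hAC inf_le_left)
  obtain rfl := hx.unique h1
  refine ⟨e, by omega, ?_⟩
  have hmod : (A ⊔ P) ⊓ C = A ⊔ C ⊓ P := by
    rw [sup_inf_assoc_of_le P hAC, inf_comm P C]
  rw [← hmod] at he
  have := he.sup
  rwa [sup_comm A P, sup_assoc, sup_eq_right.mpr hAC, sup_comm P C, sup_comm P A] at this

/-- The relative dimension below `⊤` is the dimension of the quotient. -/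
theorem to_quotient (h : RelDim A ⊤ d) :
    Module.Finite K (M ⧸ A) ∧ Module.finrank K (M ⧸ A) = d := by
  let f : (⊤ : Submodule K M) →ₗ[K] M ⧸ A := A.mkQ.comp (⊤ : Submodule K M).subtype
  have hf : Function.Surjective f := by
    intro x
    obtain ⟨x, rfl⟩ := Submodule.mkQ_surjective _ x
    exact ⟨⟨x, trivial⟩, rfl⟩
  have hker : LinearMap.ker f = A.submoduleOf ⊤ := by
    ext x
    simp [f, Submodule.submoduleOf]
  have := h.finite
  let e : (↥(⊤ : Submodule K M) ⧸ A.submoduleOf ⊤) ≃ₗ[K] M ⧸ A :=
    (Submodule.quotEquivOfEq _ _ hker.symm).trans (f.quotKerEquivOfSurjective hf)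
  exact ⟨Module.Finite.equiv e, e.finrank_eq.symm.trans h.finrank_eq⟩

/-- The relative dimension over `⊥` is the dimension. -/
theorem of_bot [Module.Finite K B] : RelDim ⊥ B (Module.finrank K B) :=
  of_surjective bot_le LinearMap.id Function.surjective_id (by
    ext x; simp [Submodule.submoduleOf])

/-- A submodule of finite dimension over `⊥` is finite dimensional. -/
theorem finite_of_bot (h : RelDim ⊥ B d) : Module.Finite K B ∧ Module.finrank K B = d := by
  have := h.finite
  have e : (B ⧸ (⊥ : Submodule K M).submoduleOf B) ≃ₗ[K] B :=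
    Submodule.quotEquivOfEqBot _ (by ext x; simp [Submodule.submoduleOf])
  exact ⟨Module.Finite.equiv e, e.finrank_eq.symm.trans h.finrank_eq⟩

end RelDim

end Fermat.Agent.FunctionField
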