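import Fermat.Agent.FunctionField.Approx
import Fermat.Agent.FunctionField.RelDim
import Mathlib.LinearAlgebra.Pi
import Mathlib.LinearAlgebra.FreeModule.Finite.Basic
import Mathlib.LinearAlgebra.Dimension.Constructions

/-!
# Bounded pole orders at a set of places

The space `lSpace S D` of functions whose pole order is at most `D` at every place of `S`. For
finite `S` the subquotient between two bounds `D ≤ E` has dimension `deg (E - D)` (`relDim_lSpace`).
-/

set_option autoImplicit false

noncomputable section

open WithZero AlgebraicCurve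

namespace Fermat.Agent.FunctionField

variable {K F : Type*} [Field K] [Field F] [Algebra K F]

/-- Functions whose pole order is bounded by `D` at every place of `S`. -/
def lSpace (S : Set (Place K F)) (D : Place K F → ℤ) : Submodule K F where
  carrier := {f | ∀ v ∈ S, v.adicValuation f ≤ exp (D v)}
  zero_mem' := fun v _ => by simp
  add_mem' := fun hf hg v hv => (Valuation.map_add _ _ _).trans (max_le (hf v hv) (hg v hv))
  smul_mem' := fun c f hf v hv => by
    show v.adicValuation (c • f) ≤ exp (D v)
    rw [Algebra.smul_def, map_mul]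
    exact (mul_le_of_le_one_left' (v.adicValuation_algebraMap_le_one c)).trans (hf v hv)

theorem lSpace_mono (S : Set (Place K F)) {D E : Place K F → ℤ} (h : ∀ v ∈ S, D v ≤ E v) :
    lSpace S D ≤ lSpace S E := fun _ hf v hv => (hf v hv).trans (exp_le_exp.mpr (h v hv))

/-- `lLocal v n`: functions with pole order at most `n` at `v`. -/
def lLocal (v : Place K F) (n : ℤ) : Submodule K F := lSpace {v} fun _ => n

/-- Membership in `lLocal v n` in terms of the valuation. -/
theorem mem_lLocal {v : Place K F} {n : ℤ} {f : F} :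
    f ∈ lLocal v n ↔ v.adicValuation f ≤ exp n :=
  ⟨fun h => h v rfl, fun h _ hw => by rw [Set.mem_singleton_iff.mp hw]; exact h⟩

theorem lLocal_mono (v : Place K F) {m n : ℤ} (h : m ≤ n) : lLocal v m ≤ lLocal v n :=
  lSpace_mono _ fun _ _ => h

/-- Raising the allowed pole order at `v` by one adds `deg v` dimensions. -/
theorem relDim_lLocal_step (v : Place K F) [Module.Finite K v.ResidueField] (n : ℤ) :
    RelDim (lLocal v (n - 1)) (lLocal v n) v.deg := by
  obtain ⟨t, ht, hval⟩ := exists_adicValuation_eq v (-n)
  have hmem : ∀ f : lLocal v n, (f : F) * t ∈ v.toValuationSubring := fun f => by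
    rw [mem_iff_adicValuation_le_one, map_mul, hval]
    refine (mul_le_mul_left (mem_lLocal.mp f.2) _).trans_eq ?_
    rw [← exp_add, add_neg_cancel, exp_zero]
  let g : lLocal v n →ₗ[K] v.toValuationSubring :=
    { toFun := fun f => ⟨(f : F) * t, hmem f⟩
      map_add' := fun f f' => Subtype.ext (add_mul (f : F) f' t)
      map_smul' := fun c f => Subtype.ext <| by
        show c • (f : F) * t = ((c • (⟨(f : F) * t, hmem f⟩ : v.toValuationSubring) :) : F)
        rw [Algebra.smul_def c (⟨(f : F) * t, hmem f⟩ : v.toValuationSubring), Algebra.smul_def c (f : F)]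
        push_cast
        rw [v.coe_algebraMap, mul_assoc] }
  let r : v.toValuationSubring →ₗ[K] v.ResidueField :=
    { toFun := IsLocalRing.residue _
      map_add' := map_add _
      map_smul' := fun c x => by
        simp only [Algebra.smul_def, RingHom.id_apply, map_mul]
        rfl }
  refine RelDim.of_surjective (lLocal_mono v (by omega)) (r.comp g) ?_ ?_
  · intro x
    obtain ⟨x, rfl⟩ := IsLocalRing.residue_surjective x
    have hx : (x : F) * t⁻¹ ∈ lLocal v n := by
      rw [mem_lLocal, map_mul, map_inv₀, hval, ← exp_neg, neg_neg]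
      exact mul_le_of_le_one_left' (v.adicValuation_le_one_of_mem x.2)
    refine ⟨⟨_, hx⟩, ?_⟩
    show IsLocalRing.residue _ _ = _
    congr 1
    exact Subtype.ext (by
      show (x : F) * t⁻¹ * t = x
      rw [mul_assoc, inv_mul_cancel₀ ht, mul_one])
  · ext f
    show IsLocalRing.residue _ (⟨(f : F) * t, hmem f⟩ : v.toValuationSubring) = 0 ↔ (f : F) ∈ lLocal v (n - 1)
    rw [IsLocalRing.residue_eq_zero_iff, IsLocalRing.mem_maximalIdeal, mem_nonunits_iff,
      ← v.adicValuation_coe_eq_one_iff, mem_lLocal]
    have h1 := mem_lLocal.mp f.2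
    rcases eq_or_ne (f : F) 0 with h0 | h0
    · simp [h0]
    show ¬ v.adicValuation ((f : F) * t) = 1 ↔ _
    rw [map_mul, hval]
    rw [v.adicValuation_eq_exp_neg_ord h0] at h1 ⊢
    rw [exp_le_exp] at h1
    rw [← exp_add, ← exp_zero, exp_inj, exp_le_exp]
    omega

theorem relDim_lLocal (v : Place K F) [Module.Finite K v.ResidueField] (n : ℤ) (k : ℕ) :
    RelDim (lLocal v n) (lLocal v (n + k)) (k * v.deg) := by
  induction k with
  | zero => simpa using RelDim.refl (lLocal v n)
  | succ k ih =>
      have h := relDim_lLocal_step v (n + k + 1)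
      rw [add_sub_cancel_right] at h
      have := ih.trans h
      rw [add_one_mul]
      simpa [add_assoc] using this

/-- The pole parts at `v` between orders `m ≤ n` have dimension `(n - m) * deg v`. -/
theorem relDim_lLocal_of_le (v : Place K F) [Module.Finite K v.ResidueField] {m n : ℤ}
    (h : m ≤ n) : RelDim (lLocal v m) (lLocal v n) ((n - m).toNat * v.deg) := by
  have := relDim_lLocal v m (n - m).toNat
  rwa [Int.toNat_of_nonneg (by omega), add_sub_cancel] at this

/-- Pole parts at `v` between the orders `m` and `n`. -/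
abbrev LocalQ (v : Place K F) (m n : ℤ) : Type _ :=
  lLocal v n ⧸ (lLocal v m).submoduleOf (lLocal v n)

/-- `deg (E - D)` on the finite set of places `S`. -/
def degOn (S : Finset (Place K F)) (D E : Place K F → ℤ) : ℕ :=
  ∑ v ∈ S, (E v - D v).toNat * v.deg

/-- For finite `S` the subquotient `L_S(E) / L_S(D)` has dimension `deg (E - D)`, by weak
approximation. -/
theorem relDim_lSpace (S : Finset (Place K F)) (hS : ∀ v ∈ S, Module.Finite K v.ResidueField)
    {D E : Place K F → ℤ} (h : ∀ v ∈ S, D v ≤ E v) :
    RelDim (lSpace (S : Set (Place K F)) D) (lSpace (S : Set (Place K F)) E) (degOn S D E) := by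
  classical
  have hq : ∀ v : S, RelDim (lLocal v.1 (D v.1)) (lLocal v.1 (E v.1))
      ((E v.1 - D v.1).toNat * v.1.deg) := fun v =>
    haveI := hS v.1 v.2
    relDim_lLocal_of_le v.1 (h v.1 v.2)
  have : ∀ v : S, Module.Finite K (LocalQ v.1 (D v.1) (E v.1)) := fun v => (hq v).finite
  let f : lSpace (S : Set (Place K F)) E →ₗ[K] (∀ v : S, LocalQ v.1 (D v.1) (E v.1)) := LinearMap.pi fun v =>
    (Submodule.mkQ _).comp
      (Submodule.inclusion fun x (hx : x ∈ lSpace (S : Set (Place K F)) E) =>
        mem_lLocal.mpr (hx v.1 v.2))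
  have hsurj : Function.Surjective f := by
    intro x
    choose a ha using fun v : S => Submodule.mkQ_surjective _ (x v)
    obtain ⟨z, hz⟩ := approximation S
      (fun v => if hv : v ∈ S then (a ⟨v, hv⟩ : F) else 0) D
    have hzE : z ∈ lSpace (S : Set (Place K F)) E := fun v hv => by
      have h2 := hz v hv
      rw [dif_pos (Finset.mem_coe.mp hv)] at h2
      have := Valuation.map_add v.adicValuation (z - (a ⟨v, hv⟩ : F)) (a ⟨v, hv⟩ : F)
      rw [sub_add_cancel] at this
      exact this.trans (max_le (h2.trans (exp_le_exp.mpr (h v hv))) (mem_lLocal.mp (a ⟨v, hv⟩).2))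
    refine ⟨⟨z, hzE⟩, funext fun v => ?_⟩
    rw [← ha v]
    refine (Submodule.Quotient.eq _).mpr ?_
    show z - (a v : F) ∈ lLocal v.1 (D v.1)
    have h2 := hz v.1 v.2
    rw [dif_pos v.2] at h2
    exact mem_lLocal.mpr h2
  have hker : LinearMap.ker f
      = (lSpace (S : Set (Place K F)) D).submoduleOf (lSpace (S : Set (Place K F)) E) := by
    ext x
    constructor
    · intro hx
      show (x : F) ∈ lSpace (S : Set (Place K F)) D
      exact fun v hv => mem_lLocal.mp
        ((Submodule.Quotient.mk_eq_zero _).mp (congrFun hx ⟨v, hv⟩) :)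
    · intro hx
      exact funext fun v => (Submodule.Quotient.mk_eq_zero _).mpr
        (mem_lLocal.mpr (((hx : (x : F) ∈ lSpace (S : Set (Place K F)) D)) v.1 v.2))
  let hM : Module K (∀ v : S, LocalQ v.1 (D v.1) (E v.1)) := Pi.module _ _ _
  have := RelDim.of_surjective (W := ∀ v : S, LocalQ v.1 (D v.1) (E v.1)) (lSpace_mono _ h) f hsurj hker
  have hfree : ∀ v : S, Module.Free K (LocalQ v.1 (D v.1) (E v.1)) :=
    fun v => Module.Free.of_divisionRing K (LocalQ v.1 (D v.1) (E v.1))
  have hrank : Module.finrank K (∀ v : S, LocalQ v.1 (D v.1) (E v.1)) = degOn S D E :=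
    ((Module.finrank_pi_fintype K).trans (Finset.sum_congr rfl fun v _ => (hq v).finrank_eq)).trans
      (Finset.sum_coe_sort S (fun v => (E v - D v).toNat * v.deg))
  exact hrank ▸ this

end Fermat.Agent.FunctionField
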