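import Fermat.Agent.FunctionField.PlaceExists
import Fermat.Agent.FunctionField.LSpace
import Fermat.Prelude.Def_AlgebraicCurve_IsCurveOver
import Mathlib.Data.Finsupp.Order
import Mathlib.RingTheory.AlgebraTower
import Mathlib.Algebra.Polynomial.Basis

/-!
# Principal divisors

For a function field in one variable: residue fields are finite over the constants, a function has
finitely many zeros and poles, Riemann–Roch spaces are finite dimensional, the degree of the zeros
(or of the poles) of a transcendental `x` is `[F : K⟮x⟯]`, and principal divisors have degree zero.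
-/

set_option autoImplicit false

noncomputable section

open WithZero AlgebraicCurve

namespace Fermat.Agent.FunctionField

variable {K F : Type*} [Field K] [Field F] [Algebra K F] [IsFunctionField K F]

omit [IsFunctionField K F] in
/-- A transcendental function is non-zero. -/
theorem transcendental_ne_zero {x : F} (hx : Transcendental K x) : x ≠ 0 :=
  fun h => hx (h ▸ isAlgebraic_zero)

/-- Residue fields of places are finite over the constants. -/
instance finite_residueField (v : Place K F) : Module.Finite K v.ResidueField := by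
  obtain ⟨t, ht0, ht⟩ := exists_adicValuation_eq v (-1)
  have htr : Transcendental K t := transcendental_of_ord_ne_zero v (by
    rw [(ord_eq_iff v ht0 (n := 1)).mpr ht]; exact one_ne_zero)
  have := IsFunctionField.finiteDimensional_adjoin t htr
  refine Module.rank_lt_aleph0_iff.mp
    ((rank_le (n := degFun K t) fun s hs => ?_).trans_lt (Cardinal.natCast_lt_aleph0))
  choose z hz using fun i : s => IsLocalRing.residue_surjective (i : v.ResidueField)
  have hmul : ∀ f ∈ lLocal v 0, t * f ∈ lLocal v 0 := fun f hf => by
    rw [mem_lLocal] at hf ⊢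
    rw [map_mul, ht]
    refine (mul_le_mul_right hf _).trans ?_
    rw [← exp_add, exp_le_exp]
    omega
  have hli := linearIndependent_adjoin_of_mod ht0 (fun i => (z i : F)) (lLocal v 0)
    (fun i => mem_lLocal.mpr (by simpa using v.adicValuation_le_one_of_mem (z i).2)) hmul ?_
  · simpa [degFun] using hli.fintype_card_le_finrank
  rintro c ⟨f, hf, hsum⟩
  have hcoe : ((∑ i, c i • z i : v.toValuationSubring) : F) = ∑ i, c i • (z i : F) := by
    rw [AddSubmonoidClass.coe_finsetSum]
    refine Finset.sum_congr rfl fun i _ => ?_
    rw [Algebra.smul_def, Algebra.smul_def]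
    push_cast
    rw [v.coe_algebraMap]
  have hres : IsLocalRing.residue v.toValuationSubring (∑ i, c i • z i) = 0 := by
    rw [IsLocalRing.residue_eq_zero_iff, IsLocalRing.mem_maximalIdeal, mem_nonunits_iff,
      ← v.adicValuation_coe_eq_one_iff, hcoe, hsum, map_mul, ht]
    intro h1
    have h2 := mul_le_mul_right (mem_lLocal.mp hf) (exp (-1) : ℤᵐ⁰)
    rw [h1, ← exp_add, ← exp_zero, exp_le_exp] at h2
    omega
  have hsum' : ∑ i, c i • (i : v.ResidueField) = 0 := by
    rw [← hres, map_sum]
    refine Finset.sum_congr rfl fun i _ => ?_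
    rw [Algebra.smul_def (c i) (z i), map_mul, hz i, Algebra.smul_def]
    rfl
  exact funext (Fintype.linearIndependent_iff.mp hs c hsum')

/-- Places have positive degree. -/
theorem deg_pos (v : Place K F) : 0 < v.deg := Module.finrank_pos

/-- Sum of the orders of zeros in a finite set is at most the degree. -/
theorem degOn_le_degFun {x : F} (hx : Transcendental K x) (S : Finset (Place K F))
    (hS : ∀ v ∈ S, 0 ≤ v.ord x) : degOn S (fun v => -v.ord x) 0 ≤ degFun K x := by
  have := IsFunctionField.finiteDimensional_adjoin x hx
  have hx0 := transcendental_ne_zero hx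
  have h := relDim_lSpace S (fun v _ => finite_residueField v) (D := fun v => -v.ord x) (E := 0)
    (fun v hv => neg_nonpos.mpr (hS v hv))
  have := h.finite
  let b := Module.finBasis K (lSpace (S : Set (Place K F)) (0 : Place K F → ℤ) ⧸
    (lSpace (S : Set (Place K F)) fun v => -v.ord x).submoduleOf
      (lSpace (S : Set (Place K F)) (0 : Place K F → ℤ)))
  choose z hz using fun i => Submodule.mkQ_surjective _ (b i)
  have hmulX : ∀ (v : Place K F), v ∈ S → ∀ f : F, v.adicValuation f ≤ exp 0 →
      v.adicValuation (x * f) ≤ exp (-v.ord x) := fun v _ f hf => by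
    rw [map_mul, v.adicValuation_eq_exp_neg_ord hx0]
    exact (mul_le_mul_right hf _).trans_eq (by rw [← exp_add, add_zero])
  have hli := linearIndependent_adjoin_of_mod hx0 (fun i => (z i : F))
    (lSpace (S : Set (Place K F)) (0 : Place K F → ℤ)) (fun i => (z i).2) ?_ ?_
  · have := hli.fintype_card_le_finrank
    rwa [Fintype.card_fin, h.finrank_eq] at this
  · exact fun f hf v hv => (hmulX v hv f (hf v hv)).trans
      (exp_le_exp.mpr (by simpa using hS v hv))
  rintro c ⟨f, hf, hsum⟩
  refine funext (Fintype.linearIndependent_iff.mp b.linearIndependent c ?_)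
  have : ∑ i, c i • b i = Submodule.mkQ _ (∑ i, c i • z i) := by
    rw [map_sum]; simp [hz]
  rw [this, Submodule.mkQ_apply, Submodule.Quotient.mk_eq_zero]
  show ((∑ i, c i • z i : lSpace (S : Set (Place K F)) (0 : Place K F → ℤ)) : F)
    ∈ lSpace (S : Set (Place K F)) fun v => -v.ord x
  rw [AddSubmonoidClass.coe_finsetSum]
  simp only [SetLike.val_smul, hsum]
  exact fun v hv => hmulX v hv f (hf v hv)

/-- A function has at most `[F : K⟮x⟯]` zeros. -/
theorem card_le_degFun {x : F} (hx : Transcendental K x) (S : Finset (Place K F))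
    (hS : ∀ v ∈ S, 0 < v.ord x) : S.card ≤ degFun K x := by
  refine le_trans ?_ (degOn_le_degFun hx S fun v hv => (hS v hv).le)
  rw [Finset.card_eq_sum_ones]
  refine Finset.sum_le_sum fun v hv => ?_
  have h1 := hS v hv
  have h2 : 1 ≤ ((0 : Place K F → ℤ) v - -v.ord x).toNat := by simp; omega
  exact one_le_mul h2 (deg_pos v)

/-- A function has finitely many zeros. -/
theorem finite_ord_pos (x : F) : {v : Place K F | 0 < v.ord x}.Finite := by
  by_cases hx : IsAlgebraic K x
  · refine Set.finite_empty.subset fun v (hv : 0 < v.ord x) => ?_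
    rw [ord_eq_zero_of_isAlgebraic v hx] at hv
    exact absurd hv (lt_irrefl _)
  by_contra h
  obtain ⟨t, ht, hc⟩ := (Set.not_finite.mp h).exists_subset_card_eq (degFun K x + 1)
  have := card_le_degFun hx t fun v hv => ht hv
  omega

/-- A function has finitely many zeros and poles. -/
theorem finite_ord_ne_zero (x : F) : {v : Place K F | v.ord x ≠ 0}.Finite := by
  refine ((finite_ord_pos x).union (finite_ord_pos (K := K) x⁻¹)).subset fun v (hv : v.ord x ≠ 0) => ?_
  rcases lt_or_gt_of_ne hv with h | h
  · exact Or.inr (show 0 < v.ord x⁻¹ by rw [v.ord_inv]; omega)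
  · exact Or.inl h

variable (K) in
/-- The divisor of a function. -/
def divFun (x : F) : Divisor K F :=
  Finsupp.ofSupportFinite (fun v => v.ord x) (finite_ord_ne_zero x)

/-- The coefficients of the divisor of a function are its orders. -/
@[simp]
theorem divFun_apply (x : F) (v : Place K F) : divFun K x v = v.ord x := rfl

omit [IsFunctionField K F] in
/-- The degree as a sum over a finite set containing the support. -/
theorem degree_eq_sum (D : Divisor K F) (S : Finset (Place K F)) (h : D.support ⊆ S) :
    Divisor.degree D = ∑ v ∈ S, D v * v.deg := by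
  show Finsupp.liftAddHom (fun v : Place K F => AddMonoidHom.mulRight (v.deg : ℤ)) D = _
  rw [Finsupp.liftAddHom_apply]
  exact Finsupp.sum_of_support_subset D h _ fun v _ => by simp

omit [IsFunctionField K F] in
/-- Effective divisors have non-negative degree. -/
theorem degree_nonneg {D : Divisor K F} (h : 0 ≤ D) : 0 ≤ Divisor.degree D := by
  rw [degree_eq_sum D D.support subset_rfl]
  exact Finset.sum_nonneg fun v _ => mul_nonneg (Finsupp.le_def.mp h v) (by positivity)

omit [IsFunctionField K F] in
/-- The degree is monotone. -/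
theorem degree_mono {D E : Divisor K F} (h : D ≤ E) : Divisor.degree D ≤ Divisor.degree E := by
  have := degree_nonneg (sub_nonneg.mpr h)
  rw [map_sub] at this
  omega

omit [IsFunctionField K F] in
/-- `degOn` computes the difference of degrees. -/
theorem degOn_eq_degree {D E : Divisor K F} (h : D ≤ E) (S : Finset (Place K F))
    (hD : D.support ⊆ S) (hE : E.support ⊆ S) :
    (degOn S D E : ℤ) = Divisor.degree E - Divisor.degree D := by
  rw [degree_eq_sum D S hD, degree_eq_sum E S hE, ← Finset.sum_sub_distrib, degOn, Nat.cast_sum]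
  refine Finset.sum_congr rfl fun v _ => ?_
  rw [Nat.cast_mul, Int.toNat_of_nonneg (sub_nonneg.mpr (Finsupp.le_def.mp h v)), sub_mul]

/-- `L(E) / L(D)` has dimension at most `deg E - deg D` for `D ≤ E`. -/
theorem relDim_riemannRochSpace {D E : Divisor K F} (h : D ≤ E) :
    ∃ a : ℕ, RelDim (riemannRochSpace D) (riemannRochSpace E) a ∧
      (a : ℤ) ≤ Divisor.degree E - Divisor.degree D := by
  classical
  set S := D.support ∪ E.support
  have hS := relDim_lSpace S (fun v _ => finite_residueField v) (D := fun v => D v)
    (E := fun v => E v) fun v _ => Finsupp.le_def.mp h v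
  have hle : riemannRochSpace E ≤ lSpace (S : Set (Place K F)) (fun v => E v) :=
    fun f hf v _ => hf v
  obtain ⟨a, b, hab, ha, -⟩ := hS.split (B := lSpace (S : Set (Place K F)) (fun v => D v) ⊔
    riemannRochSpace E) le_sup_left (sup_le hS.le hle)
  have ha' := ha.inf
  have heq : lSpace (S : Set (Place K F)) (fun v => D v) ⊓ riemannRochSpace E
      = riemannRochSpace D := by
    ext f
    refine ⟨fun hf v => ?_, fun hf => ⟨fun v _ => hf v,
      fun v => (hf v).trans (exp_le_exp.mpr (Finsupp.le_def.mp h v))⟩⟩
    by_cases hv : v ∈ S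
    · exact hf.1 v hv
    · simp only [S, Finset.mem_union, Finsupp.mem_support_iff, not_or, not_not] at hv
      have := hf.2 v
      rwa [hv.2, ← hv.1] at this
  rw [heq] at ha'
  refine ⟨a, ha', ?_⟩
  have h2 : (degOn S (fun v => D v) (fun v => E v) : ℤ) = Divisor.degree E - Divisor.degree D :=
    degOn_eq_degree h S Finset.subset_union_left Finset.subset_union_right
  omega

/-- Only zero vanishes at `v` and has no poles. -/
theorem riemannRochSpace_neg_single (v : Place K F) :
    riemannRochSpace (-Finsupp.single v (1 : ℤ) : Divisor K F) = ⊥ := by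
  classical
  refine eq_bot_iff.mpr fun f hf => ?_
  by_contra hf0
  replace hf0 : f ≠ 0 := fun h => hf0 (h ▸ zero_mem _)
  rw [mem_riemannRochSpace_iff] at hf
  have h1 := (hf v).resolve_left hf0
  simp at h1
  obtain ⟨w, hw⟩ := exists_place_ord_pos
    (transcendental_inv (transcendental_of_ord_ne_zero v (f := f) (by omega)))
  rw [w.ord_inv] at hw
  have h2 := (hf w).resolve_left hf0
  simp [Finsupp.single_apply] at h2
  split_ifs at h2 <;> omega

variable (K F) in
/-- A function field has a place. -/
theorem nonempty_place : Nonempty (Place K F) :=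
  let ⟨_, hx⟩ := IsFunctionField.exists_transcendental (K := K) (F := F)
  let ⟨v, _⟩ := exists_place_ord_pos hx
  ⟨v⟩

/-- `L(0)` has dimension at most the degree of any place. -/
theorem finrank_riemannRochSpace_zero_le (v : Place K F) :
    Module.Finite K (riemannRochSpace (0 : Divisor K F)) ∧
      Module.finrank K (riemannRochSpace (0 : Divisor K F)) ≤ v.deg := by
  obtain ⟨a, ha, hle⟩ := relDim_riemannRochSpace
    (show (-Finsupp.single v (1 : ℤ) : Divisor K F) ≤ 0 from neg_nonpos.mpr (by simp))
  rw [riemannRochSpace_neg_single] at ha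
  obtain ⟨hfin, hrank⟩ := ha.finite_of_bot
  refine ⟨hfin, ?_⟩
  simp at hle
  omega

omit [IsFunctionField K F] in
theorem riemannRochSpace_mono {D E : Divisor K F} (h : D ≤ E) :
    riemannRochSpace D ≤ riemannRochSpace E :=
  fun _ hf v => (hf v).trans (exp_le_exp.mpr (Finsupp.le_def.mp h v))

theorem ell_le_of_nonneg {D : Divisor K F} (h : 0 ≤ D) :
    Module.Finite K (riemannRochSpace D) ∧
      (Module.finrank K (riemannRochSpace D) : ℤ)
        ≤ Divisor.degree D + Module.finrank K (riemannRochSpace (0 : Divisor K F)) := by
  obtain ⟨v⟩ := nonempty_place K F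
  have := (finrank_riemannRochSpace_zero_le v).1
  obtain ⟨a, ha, hle⟩ := relDim_riemannRochSpace h
  obtain ⟨hfin, hrank⟩ := (RelDim.of_bot.trans ha).finite_of_bot
  refine ⟨hfin, ?_⟩
  rw [map_zero] at hle
  omega

/-- Riemann–Roch spaces are finite dimensional. -/
instance finite_riemannRochSpace (D : Divisor K F) :
    Module.Finite K (riemannRochSpace D) := by
  have := (ell_le_of_nonneg (D := D ⊔ 0) le_sup_right).1
  exact Module.Finite.of_injective
    (Submodule.inclusion (riemannRochSpace_mono (le_sup_left : D ≤ D ⊔ 0)))
    (Submodule.inclusion_injective _)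

/-- The pole divisor of a function. -/
def poleDiv (K : Type*) {F : Type*} [Field K] [Field F] [Algebra K F] [IsFunctionField K F]
    (x : F) : Divisor K F := (-divFun K x) ⊔ 0

/-- Pole divisors are effective. -/
theorem poleDiv_nonneg (x : F) : 0 ≤ poleDiv K x := le_sup_right

/-- The pole divisor bounds the poles. -/
theorem neg_ord_le_poleDiv (x : F) (v : Place K F) : -v.ord x ≤ poleDiv K x v := by
  simp [poleDiv, Finsupp.sup_apply]

omit [IsFunctionField K F] in
/-- The powers of a transcendental function are independent over the constants. -/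
theorem linearIndependent_pow {x : F} (hx : Transcendental K x) :
    LinearIndependent K fun n : ℕ => x ^ n := by
  have := (Polynomial.basisMonomials K).linearIndependent.map'
    (Polynomial.aeval x).toLinearMap (LinearMap.ker_eq_bot.mpr (transcendental_iff_injective.mp hx))
  have heq : (fun n : ℕ => x ^ n)
      = ⇑(Polynomial.aeval x).toLinearMap ∘ ⇑(Polynomial.basisMonomials K) := by
    ext n
    simp [Polynomial.aeval_monomial]
  exact heq ▸ this

theorem degree_poleDiv_le {x : F} (hx : Transcendental K x) :
    Divisor.degree (poleDiv K x) ≤ degFun K x := by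
  classical
  set S := (poleDiv K x).support
  have hS : ∀ v ∈ S, 0 < v.ord x⁻¹ := fun v hv => by
    rw [Finsupp.mem_support_iff, poleDiv, Finsupp.sup_apply] at hv
    simp at hv
    rw [v.ord_inv]
    omega
  have h := degOn_le_degFun (transcendental_inv hx) S fun v hv => (hS v hv).le
  rw [degFun_inv] at h
  refine le_of_eq_of_le ?_ (Int.ofNat_le.mpr h)
  rw [degree_eq_sum _ S subset_rfl, degOn, Nat.cast_sum]
  refine Finset.sum_congr rfl fun v hv => ?_
  have := hS v hv
  rw [v.ord_inv] at this
  rw [Nat.cast_mul, Int.toNat_of_nonneg (by simp [v.ord_inv]; omega), poleDiv, Finsupp.sup_apply]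
  simp [v.ord_inv]
  rw [max_eq_left (by omega)]
  ring

/-- There are many functions with poles bounded by multiples of the pole divisor of `x`. -/
theorem exists_mul_le_ell {x : F} (hx : Transcendental K x) :
    ∃ C : Divisor K F, 0 ≤ C ∧ ∀ k : ℕ, degFun K x * (k + 1) ≤
      Module.finrank K (riemannRochSpace (k • poleDiv K x + C)) := by
  classical
  have := IsFunctionField.finiteDimensional_adjoin x hx
  let b := Module.finBasis (IntermediateField.adjoin K {x}) F
  refine ⟨∑ i, poleDiv K (b i), Finset.sum_nonneg fun i _ => poleDiv_nonneg _, fun k => ?_⟩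
  set C := ∑ i, poleDiv K (b i)
  let gen : IntermediateField.adjoin K {x} := ⟨x, IntermediateField.mem_adjoin_simple_self K x⟩
  have hgen : LinearIndependent K fun j : Fin (k + 1) => gen ^ (j : ℕ) := by
    refine LinearIndependent.of_comp (IntermediateField.adjoin K {x}).val.toLinearMap ?_
    exact (linearIndependent_pow hx).comp _ Fin.val_injective
  have hli := linearIndependent_smul hgen b.linearIndependent
  have hmem : ∀ p : Fin (k + 1) × Fin (degFun K x),
      gen ^ (p.1 : ℕ) • b p.2 ∈ riemannRochSpace (k • poleDiv K x + C) := by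
    intro p
    rw [mem_riemannRochSpace_iff]
    intro v
    refine or_iff_not_imp_left.mpr fun _ => ?_
    have hb : b p.2 ≠ 0 := b.ne_zero _
    have hx0 := transcendental_ne_zero hx
    show _ ≤ v.ord ((x ^ (p.1 : ℕ)) * b p.2)
    rw [v.ord_mul (pow_ne_zero _ hx0) hb, ord_pow]
    have h1 : poleDiv K (b p.2) ≤ C :=
      Finset.single_le_sum (f := fun i => poleDiv K (b i)) (fun i _ => poleDiv_nonneg _)
        (Finset.mem_univ _)
    have h2 := Finsupp.le_def.mp h1 v
    have h3 := neg_ord_le_poleDiv (K := K) (b p.2) v
    have h4 : ((p.1 : ℕ) : ℤ) * -v.ord x ≤ (k : ℤ) * poleDiv K x v :=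
      (mul_le_mul_of_nonneg_left (neg_ord_le_poleDiv x v) (by omega)).trans
        (mul_le_mul_of_nonneg_right (by omega) (Finsupp.le_def.mp (poleDiv_nonneg x) v))
    simp only [Finsupp.add_apply, Finsupp.smul_apply, nsmul_eq_mul]
    linarith
  have hli' : LinearIndependent K
      fun p => (⟨_, hmem p⟩ : riemannRochSpace (k • poleDiv K x + C)) :=
    LinearIndependent.of_comp (riemannRochSpace _).subtype hli
  have := hli'.fintype_card_le_finrank
  rw [Fintype.card_prod, Fintype.card_fin, Fintype.card_fin] at this
  rw [mul_comm]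
  exact this

/-- The fundamental identity: `x` has `[F : K⟮x⟯]` poles. -/
theorem degree_poleDiv {x : F} (hx : Transcendental K x) :
    Divisor.degree (poleDiv K x) = degFun K x := by
  refine le_antisymm (degree_poleDiv_le hx) ?_
  by_contra! hlt
  obtain ⟨C, hC, hk⟩ := exists_mul_le_ell hx
  set k := (Divisor.degree C).toNat + Module.finrank K (riemannRochSpace (0 : Divisor K F))
  have h1 := (ell_le_of_nonneg (D := k • poleDiv K x + C)
    (add_nonneg (nsmul_nonneg (poleDiv_nonneg x) k) hC)).2
  rw [map_add, map_nsmul, nsmul_eq_mul] at h1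
  have h2 : (degFun K x : ℤ) * (k + 1) ≤
      Module.finrank K (riemannRochSpace (k • poleDiv K x + C)) := by exact_mod_cast hk k
  have h3 : (k : ℤ) * Divisor.degree (poleDiv K x) ≤ k * (degFun K x - 1) :=
    mul_le_mul_of_nonneg_left (by omega) (by omega)
  have h4 := degree_nonneg hC
  have h5 : (0 : ℤ) < degFun K x := by exact_mod_cast degFun_pos hx
  have hkdef : (k : ℤ) = Divisor.degree C +
      Module.finrank K (riemannRochSpace (0 : Divisor K F)) := by
    simp only [k, Nat.cast_add, Int.toNat_of_nonneg h4]
  linarith

/-- The divisor of an inverse. -/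
theorem divFun_inv (x : F) : divFun K x⁻¹ = -divFun K x := by
  ext v; simp [Place.ord_inv]

/-- The fundamental identity: `x` has `[F : K⟮x⟯]` zeros. -/
theorem degree_zeros {x : F} (hx : Transcendental K x) :
    Divisor.degree (divFun K x ⊔ 0) = degFun K x := by
  have := degree_poleDiv (transcendental_inv hx)
  rwa [poleDiv, divFun_inv, neg_neg, degFun_inv] at this

/-- Principal divisors have degree zero. -/
theorem degree_divFun (x : F) : Divisor.degree (divFun K x) = 0 := by
  by_cases hx : IsAlgebraic K x
  · have : divFun K x = 0 := by ext v; simp [ord_eq_zero_of_isAlgebraic v hx]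
    rw [this, map_zero]
  have h : divFun K x = divFun K x ⊔ 0 - poleDiv K x := by
    ext v
    simp only [poleDiv, Finsupp.sub_apply, Finsupp.sup_apply, Finsupp.neg_apply,
      Finsupp.zero_apply]
    omega
  rw [h, map_sub, degree_zeros hx, degree_poleDiv hx, sub_self]

/-- Every function has a divisor, of degree zero. -/
theorem hasPrincipalDivisors : HasPrincipalDivisors K F :=
  ⟨fun f _ => ⟨divFun K f, fun v => divFun_apply f v, degree_divFun f⟩⟩

instance instHasPrincipalDivisors : HasPrincipalDivisors K F := hasPrincipalDivisors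

instance instFiniteResidue (v : Place K F) : v.FiniteResidue := ⟨finite_residueField v⟩

end Fermat.Agent.FunctionField
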