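import Fermat.Prelude.Def_AlgebraicCurve_Repartitions
import Mathlib.RingTheory.Valuation.LocalSubring
import Mathlib.RingTheory.Algebraic.Integral

/-!
# Elementary facts about places

Orders and valuations of algebraic, constant and transcendental elements, and the fact that
valuation subrings of distinct places are incomparable.
-/

set_option autoImplicit false

noncomputable section

open WithZero AlgebraicCurve

namespace Fermat.Agent.FunctionField

variable {K F : Type*} [Field K] [Field F] [Algebra K F]

/-- A valuation subring containing `K` contains every element integral over `K`. -/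
theorem mem_valuationSubring_of_isAlgebraic (A : ValuationSubring F)
    (hK : ∀ a : K, algebraMap K F a ∈ A) {x : F} (hx : IsAlgebraic K x) : x ∈ A := by
  obtain ⟨p, hp, hpx⟩ := (hx.isIntegral)
  have hint : IsIntegral A.valuation.integer x := by
    let g : K →+* A.valuation.integer :=
      (algebraMap K F).codRestrict A.valuation.integer fun a =>
        (A.valuation_le_one_iff _).mpr (hK a)
    refine ⟨p.map g, hp.map g, ?_⟩
    rw [Polynomial.eval₂_map]
    exact hpx
  exact (A.valuation_le_one_iff x).mp
    ((Valuation.integer.integers A.valuation).mem_of_integral hint)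

variable (v : Place K F)

/-- The valuation subring of a place is the closed unit ball of its valuation. -/
theorem mem_iff_adicValuation_le_one {f : F} :
    f ∈ v.toValuationSubring ↔ v.adicValuation f ≤ 1 := by
  refine ⟨v.adicValuation_le_one_of_mem, fun h => ?_⟩
  by_contra hf
  have hfi : f⁻¹ ∈ v.toValuationSubring :=
    (v.toValuationSubring.mem_or_inv_mem f).resolve_left hf
  have hne : f ≠ 0 := fun h0 => hf (h0 ▸ zero_mem _)
  have h1 : v.adicValuation f⁻¹ ≠ 1 := by
    intro h1
    obtain ⟨b, hb⟩ := isUnit_iff_exists_inv.mp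
      ((v.adicValuation_coe_eq_one_iff ⟨f⁻¹, hfi⟩).mp h1)
    have hb' : f⁻¹ * (b : F) = 1 := congrArg Subtype.val hb
    refine hf ?_
    have : (b : F) = f := by
      calc (b : F) = f * (f⁻¹ * b) := by rw [← mul_assoc, mul_inv_cancel₀ hne, one_mul]
        _ = f := by rw [hb', mul_one]
    exact this ▸ b.2
  have h2 : v.adicValuation f⁻¹ ≤ 1 := v.adicValuation_le_one_of_mem hfi
  rw [map_inv₀] at h1 h2
  rw [inv_le_one₀ (zero_lt_iff.mpr (v.adicValuation_ne_zero hne))] at h2
  exact h1 (inv_eq_one.mpr (le_antisymm h h2))

/-- The valuation is below one exactly at zero and at functions of positive order. -/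
theorem adicValuation_lt_one_iff {f : F} :
    v.adicValuation f < 1 ↔ f = 0 ∨ 0 < v.ord f := by
  rcases eq_or_ne f 0 with rfl | hf
  · simp
  · rw [v.adicValuation_eq_exp_neg_ord hf, ← exp_zero, exp_lt_exp]
    simp [hf]

/-- The valuation is one exactly at functions of order zero. -/
theorem adicValuation_eq_one_iff {f : F} (hf : f ≠ 0) :
    v.adicValuation f = 1 ↔ v.ord f = 0 := by
  rw [v.adicValuation_eq_exp_neg_ord hf, ← exp_zero, exp_inj, neg_eq_zero]

/-- The order of a power. -/
theorem ord_pow (f : F) (n : ℕ) : v.ord (f ^ n) = n * v.ord f := by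
  simpa using v.ord_zpow f n

/-- The order in terms of the valuation. -/
theorem ord_eq_iff {f : F} (hf : f ≠ 0) {n : ℤ} :
    v.ord f = n ↔ v.adicValuation f = exp (-n) := by
  rw [v.adicValuation_eq_exp_neg_ord hf, exp_inj, neg_inj]

/-- Every integer is the order of a function. -/
theorem exists_ord_eq (n : ℤ) : ∃ f : F, f ≠ 0 ∧ v.ord f = n := by
  obtain ⟨π, hπ⟩ := IsDiscreteValuationRing.exists_irreducible v.toValuationSubring
  have h0 : (π : F) ≠ 0 := by simpa using hπ.ne_zero
  exact ⟨(π : F) ^ n, zpow_ne_zero n h0, by rw [v.ord_zpow, v.ord_coe_irreducible hπ, mul_one]⟩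

/-- The valuation of a place is surjective onto the powers of `exp 1`. -/
theorem exists_adicValuation_eq (n : ℤ) :
    ∃ f : F, f ≠ 0 ∧ v.adicValuation f = exp n := by
  obtain ⟨f, hf, h⟩ := exists_ord_eq v (-n)
  exact ⟨f, hf, by rw [v.adicValuation_eq_exp_neg_ord hf, h, neg_neg]⟩

/-- Functions algebraic over the constants have order zero everywhere. -/
theorem ord_eq_zero_of_isAlgebraic {f : F} (hf : IsAlgebraic K f) : v.ord f = 0 := by
  rcases eq_or_ne f 0 with rfl | hne
  · simp
  have h1 := (mem_iff_adicValuation_le_one v).mp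
    (mem_valuationSubring_of_isAlgebraic _ v.algebraMap_mem' hf)
  have h2 := (mem_iff_adicValuation_le_one v).mp
    (mem_valuationSubring_of_isAlgebraic _ v.algebraMap_mem' hf.inv)
  rw [v.adicValuation_le_one_iff, or_iff_right hne] at h1
  rw [v.adicValuation_le_one_iff, or_iff_right (inv_ne_zero hne), v.ord_inv] at h2
  omega

/-- A function with a zero or pole is transcendental. -/
theorem transcendental_of_ord_ne_zero {f : F} (hf : v.ord f ≠ 0) : Transcendental K f :=
  fun h => hf (ord_eq_zero_of_isAlgebraic v h)

/-- Constants have order zero. -/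
theorem ord_algebraMap (a : K) : v.ord (algebraMap K F a) = 0 :=
  ord_eq_zero_of_isAlgebraic v (isAlgebraic_algebraMap a)

/-- Non-zero constants have valuation one. -/
theorem adicValuation_algebraMap {a : K} (ha : a ≠ 0) :
    v.adicValuation (algebraMap K F a) = 1 := by
  rw [adicValuation_eq_one_iff v (by simpa using ha)]
  exact ord_algebraMap v a

/-- The valuation subrings of places are maximal. -/
theorem eq_of_le {v w : Place K F} (h : v.toValuationSubring ≤ w.toValuationSubring) : v = w := by
  refine Place.ext (le_antisymm h fun x hx => ?_)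
  by_contra hxv
  have hord : v.ord x < 0 := by
    rw [← Place.not_adicValuation_le_one_iff]
    exact fun hc => hxv ((mem_iff_adicValuation_le_one v).mpr hc)
  have hx0 : x ≠ 0 := fun h0 => hxv (h0 ▸ zero_mem _)
  refine w.ne_top' (SetLike.ext fun f => ⟨fun _ => ValuationSubring.mem_top f, fun _ => ?_⟩)
  rcases eq_or_ne f 0 with rfl | hf
  · exact zero_mem _
  set k : ℕ := (v.ord f).natAbs
  have hk : f * (x ^ k)⁻¹ ∈ v.toValuationSubring := by
    rw [mem_iff_adicValuation_le_one, v.adicValuation_le_one_iff]
    right
    rw [v.ord_mul hf (inv_ne_zero (pow_ne_zero _ hx0)), v.ord_inv, ord_pow]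
    have hm : (k : ℤ) * v.ord x ≤ (k : ℤ) * (-1) :=
      mul_le_mul_of_nonneg_left (by omega) (Int.natCast_nonneg _)
    omega
  have : f * (x ^ k)⁻¹ * x ^ k ∈ w.toValuationSubring := mul_mem (h hk) (pow_mem hx k)
  rwa [mul_assoc, inv_mul_cancel₀ (pow_ne_zero _ hx0), mul_one] at this

/-- Distinct places have incomparable valuation subrings. -/
theorem exists_mem_notMem {v w : Place K F} (h : v ≠ w) :
    ∃ a : F, v.adicValuation a ≤ 1 ∧ 1 < w.adicValuation a := by
  by_contra! hc
  exact h (eq_of_le fun a ha => (mem_iff_adicValuation_le_one w).mpr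
    (hc a ((mem_iff_adicValuation_le_one v).mp ha)))

end Fermat.Agent.FunctionField
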